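/-
S55 interface adapter (helper77): the subgroup `H₀ = muSub p L ≤ Gal(L/ℚ)` below which the second
inequality (32-OUT) is stated: the image of `ker (cycloChar p)` under `resL L`.  It is normal of
index prime to `p` — the hypotheses of `Adapt77.SylowBelow` / `Adapt77.TowerInputsK`.
-/
import Fermat.Agent.S55.Idele73.Basic
import Fermat.Prelude.Def_ExtCitation_KummerBridge

set_option autoImplicit false

namespace Fermat.Agent.S55.Adapt77.MuSubgroup

open Fermat.Agent.S55.Idele73.Basic ExtCitation

section Generic

variable {G Q : Type*} [Group G] [Group Q]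

/-- the kernel of a character with values in `(ZMod p)ˣ` has index prime to `p`. -/
theorem not_dvd_index_ker (p : ℕ) [Fact p.Prime] (χ : G →* (ZMod p)ˣ) : ¬ p ∣ χ.ker.index := by
  have hp : p.Prime := Fact.out
  rw [Subgroup.index_ker]
  have h2 : Nat.card χ.range ∣ p - 1 := by
    have := Subgroup.card_subgroup_dvd_card χ.range
    rwa [Nat.card_eq_fintype_card (α := (ZMod p)ˣ), ZMod.card_units] at this
  intro h
  have hp1 : 1 < p := hp.one_lt
  exact Nat.not_dvd_of_pos_of_lt (by omega) (by omega) (dvd_trans h h2)

/-- the image of such a kernel under a surjection still has index prime to `p`. -/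
theorem not_dvd_index_map_ker (p : ℕ) [Fact p.Prime] (χ : G →* (ZMod p)ˣ) (π : G →* Q)
    (hπ : Function.Surjective π) : ¬ p ∣ (χ.ker.map π).index := fun h =>
  not_dvd_index_ker p χ (h.trans (Subgroup.index_map_dvd χ.ker hπ))

end Generic

variable (p : ℕ) [Fact p.Prime] (L : IntermediateField ℚ Qbar) [Normal ℚ L]

/-- `H₀`: the elements of `Gal(L/ℚ)` induced by automorphisms of `ℚbar` fixing `μ_p`
(`= Gal(L/ℚ(μ_p))` when `μ_p ⊆ L`). -/
noncomputable def muSub : Subgroup (GalL L) := (cycloChar p).ker.map (resL L)

instance muSub_normal : (muSub p L).Normal :=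
  Subgroup.Normal.map (MonoidHom.normal_ker _) _ (resL_surjective L)

theorem not_dvd_index_muSub : ¬ p ∣ (muSub p L).index :=
  not_dvd_index_map_ker p (cycloChar p) (resL L) (resL_surjective L)

instance muSub_finiteIndex [FiniteDimensional ℚ L] : (muSub p L).FiniteIndex :=
  haveI : Finite (GalL L) := inferInstanceAs (Finite (L ≃ₐ[ℚ] L))
  inferInstance

/-- an open subgroup on which the cyclotomic character is trivial maps into `muSub`. -/
theorem map_le_muSub {V : Subgroup GQ} (hV : ∀ s ∈ V, cycloChar p s = 1) :
    V.map (resL L) ≤ muSub p L :=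
  Subgroup.map_mono fun s hs => MonoidHom.mem_ker.2 (hV s hs)

end Fermat.Agent.S55.Adapt77.MuSubgroup
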