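/-
S55 interface adapter (helper77): the LITERAL output shapes of leaves 31 (first inequality) and
32 (second inequality) for the cyclic layers `N ⊴ H ≤ H₀ ≤ G`, `|H ⧸ N| = p`, of a pair
`(G, A)` (`A = C_S(L) : Rep ℤ (Gal(L/ℚ))`), and the glue
`(31-OUT) + (32-OUT) ⇒ hcyc ⇒ H¹ = 0, |H²(p)| ∣ |H ⧸ N|_p` for ALL layers below `H₀`
(helper54 `HerbrandHcyc54.hcyc_dvd` + helper99 `SubQuot99` + helper9 `InfRes9.Devissage`
through `Adapt77.SubQuotBelow`).
-/
import Fermat.Agent.S55.Adapt77.SubQuotBelow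
import Fermat.Agent.S55.HerbrandHcyc54

set_option autoImplicit false

open CategoryTheory Rep groupCohomology

universe u

namespace Fermat.Agent.S55.Adapt77.HcycGlue

open Fermat.Agent.S55.SubQuot99 Fermat.Agent.S55.InfRes9
open Fermat.Agent.S55.Herbrand54 Fermat.Agent.S55.HerbrandCyclic54 Fermat.Agent.S55.HerbrandHcyc54
open Fermat.Agent.S55.Adapt77.SubQuotBelow

variable {k G : Type u} [CommRing k] [Group G] (A : Rep.{u, u, u} k G) (H₀ : Subgroup G) (p : ℕ)

/-- the module of the layer `N ⊴ H`: `(Res_H A)^N` as a representation of `H ⧸ N`. -/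
noncomputable abbrev layer (H : Subgroup G) (N : Subgroup H) [N.Normal] : Rep.{u, u, u} k (H ⧸ N) :=
  (Rep.res H.subtype A).quotientToInvariants N

/-- the Herbrand pair `(g - 1, Norm)` of the layer `N ⊴ H` with respect to `g : H ⧸ N`. -/
noncomputable abbrev layerPair (H : Subgroup G) (N : Subgroup H) [N.Normal] [Fintype (H ⧸ N)]
    (g : H ⧸ N) : Pair (layer A H N).V :=
  cyclicPair (repRhoM (layer A H N)) g

/-- **(31-OUT)** the FIRST inequality for all cyclic layers of order `p` below `H₀`: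
the Herbrand quotient of `(H ⧸ N, A^N)` is defined and equal to `p`. -/
def FirstIneqOut : Prop :=
  ∀ (H : Subgroup G), H ≤ H₀ → ∀ (N : Subgroup H) [N.Normal], Nat.card (H ⧸ N) = p →
    ∀ [Fintype (H ⧸ N)] (g : H ⧸ N), (∀ x, x ∈ Subgroup.zpowers g) →
      (layerPair A H N g).IsDefined ∧ (layerPair A H N g).q = p

/-- **(32-OUT)** the SECOND inequality for all cyclic layers of order `p` below `H₀`:
`|A^H / N_{H/N} A^N|` divides `p`. -/
def SecondIneqOut : Prop :=
  ∀ (H : Subgroup G), H ≤ H₀ → ∀ (N : Subgroup H) [N.Normal], Nat.card (H ⧸ N) = p →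
    ∀ [Fintype (H ⧸ N)] (g : H ⧸ N), (∀ x, x ∈ Subgroup.zpowers g) →
      Nat.card (layerPair A H N g).H0 ∣ p

variable {A H₀ p}

/-- the hypothesis `hcyc` of the devissage below `H₀` from the two inequalities. -/
theorem hcyc_of_out [Fact p.Prime] (h31 : FirstIneqOut A H₀ p) (h32 : SecondIneqOut A H₀ p)
    (H : Subgroup G) (hH : H ≤ H₀) (N : Subgroup H) [N.Normal] (hc : Nat.card (H ⧸ N) = p) :
    Good p (H ⧸ N) ((Rep.res H.subtype A).quotientToInvariants N) := by
  have hp : p.Prime := Fact.out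
  have : Finite (H ⧸ N) := Nat.finite_of_card_ne_zero (by rw [hc]; exact hp.ne_zero)
  let _ : Fintype (H ⧸ N) := Fintype.ofFinite _
  have : IsCyclic (H ⧸ N) := isCyclic_of_prime_card hc
  obtain ⟨g, hg⟩ := IsCyclic.exists_generator (α := H ⧸ N)
  obtain ⟨hdef, hq⟩ := h31 H hH N hc g hg
  have h0 := h32 H hH N hc g hg
  obtain ⟨h1, -, h2⟩ := hcyc_dvd (layer A H N) g hg p hp.pos hdef hq h0
  exact ⟨h1, h2⟩

/-- **(33-OUT), p-group layers below `H₀`**: `H¹(H ⧸ N, A^N) = 0` and `|H²(H ⧸ N, A^N)|` divides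
`|H ⧸ N|`. -/
theorem pGroup_of_out [Fact p.Prime] (h31 : FirstIneqOut A H₀ p) (h32 : SecondIneqOut A H₀ p)
    (H : Subgroup G) (hH : H ≤ H₀) (N : Subgroup H) [N.Normal] [Finite (H ⧸ N)]
    (hp : IsPGroup p (H ⧸ N)) :
    Limits.IsZero (groupCohomology ((Rep.res H.subtype A).quotientToInvariants N) 1) ∧
      Nat.card (groupCohomology ((Rep.res H.subtype A).quotientToInvariants N) 2) ∣
        Nat.card (H ⧸ N) :=
  below_pGroup p (hcyc_of_out h31 h32) H hH N hp

/-- **(33-OUT), `p`-parts of arbitrary layers below `H₀`**: `H¹(H ⧸ N, A^N)(p) = 0` and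
`|H²(H ⧸ N, A^N)(p)|` divides `|H ⧸ N|_p`. -/
theorem pPart_of_out [Fact p.Prime] (h31 : FirstIneqOut A H₀ p) (h32 : SecondIneqOut A H₀ p)
    (H : Subgroup G) (hH : H ≤ H₀) (N : Subgroup H) [N.Normal] [Finite (H ⧸ N)] :
    (∀ x : groupCohomology ((Rep.res H.subtype A).quotientToInvariants N) 1,
        (∃ n : ℕ, p ^ n • x = 0) → x = 0) ∧
      Nat.card (pPrimary p (groupCohomology ((Rep.res H.subtype A).quotientToInvariants N) 2)) ∣
        p ^ (Nat.card (H ⧸ N)).factorization p :=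
  below_pPart p (hcyc_of_out h31 h32) H hH N

/-- **(33-OUT), subgroups `H ≤ H₀` acting on `A` itself**. -/
theorem res_pPart_of_out [Fact p.Prime] [Finite G] (h31 : FirstIneqOut A H₀ p)
    (h32 : SecondIneqOut A H₀ p) (H : Subgroup G) (hH : H ≤ H₀) :
    (∀ x : groupCohomology (Rep.res H.subtype A) 1, (∃ n : ℕ, p ^ n • x = 0) → x = 0) ∧
      Nat.card (pPrimary p (groupCohomology (Rep.res H.subtype A) 2)) ∣
        p ^ (Nat.card H).factorization p :=
  below_res_pPart p (hcyc_of_out h31 h32) H hH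

end Fermat.Agent.S55.Adapt77.HcycGlue
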