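/-
S55 interface adapter (helper77): seam 33 → 36-CS / (L-a) / (F1)(p).

From the two inequalities `HcycGlue.FirstIneqOut`, `HcycGlue.SecondIneqOut` at a COFINAL family of
finite levels of a smooth module `A` over a group `Γ` with level structure `𝒰` (each level presented
by an invariant-descent datum `(π : Γ →* Q, B, e)` in helper79's sense, `Q` finite) we get, for EVERY
open subgroup `V` of `Γ`:

* helper79's `CS79.Primary.CofinalH1PrimaryVanishing (restrictLevels 𝒰 V hV) p (Res_V A)`,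
* hence `CS79.Primary.H1PrimaryVanishes (restrictLevels 𝒰 V hV) p (Res_V A)`  [= (F1)(p)],
* in the literal shape `hH1Cp` of `CDArith63.h3Van_of_formation_primary'` (helper34) and in the
  literal shape `hC1` of `S1_67.Level` (helper67).
-/
import Fermat.Agent.S55.Adapt77.HcycGlue
import Fermat.Agent.S55.CS79.Primary
import Fermat.Agent.S55.CS79.Restrict
import Fermat.Agent.S55.CDArith63.Cochain

set_option autoImplicit false

open CategoryTheory groupCohomology

universe u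

namespace Fermat.Agent.S55.Adapt77.CofinalInputs

open Fermat.Agent.S55.Profin15 Fermat.Agent.S55.CD3
open Fermat.Agent.S55.CS79.InvDescent Fermat.Agent.S55.CS79.Primary Fermat.Agent.S55.CS79.Restrict
open Fermat.Agent.S55.Adapt77.HcycGlue

section Elementwise

variable {k Q : Type u} [CommRing k] [Group Q] (B : Rep.{u, u, u} k Q) (p : ℕ)

/-- cocycle form of "the `p`-primary part of `H¹(Q, B)` vanishes". -/
theorem mem_coboundaries₁_of_pPrimary
    (h : ∀ x : groupCohomology B 1, (∃ n : ℕ, p ^ n • x = 0) → x = 0)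
    (c : Q → B) (hc : c ∈ cocycles₁ B) (hn : ∃ n : ℕ, p ^ n • c ∈ coboundaries₁ B) :
    c ∈ coboundaries₁ B := by
  obtain ⟨n, hn⟩ := hn
  have h0 : H1π B ⟨c, hc⟩ = 0 := by
    apply h
    refine ⟨n, ?_⟩
    have h1 : p ^ n • H1π B ⟨c, hc⟩ = H1π B (p ^ n • (⟨c, hc⟩ : cocycles₁ B)) := by
      rw [map_nsmul]
    rw [h1, H1π_eq_zero_iff]
    exact hn
  exact (H1π_eq_zero_iff _).1 h0

/-- and conversely. -/
theorem pPrimary_of_mem_coboundaries₁
    (h : ∀ c : Q → B, c ∈ cocycles₁ B → (∃ n : ℕ, p ^ n • c ∈ coboundaries₁ B) →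
      c ∈ coboundaries₁ B)
    (x : groupCohomology B 1) (hx : ∃ n : ℕ, p ^ n • x = 0) : x = 0 := by
  obtain ⟨n, hn⟩ := hx
  induction x using H1_induction_on with
  | h c =>
    rw [H1π_eq_zero_iff]
    refine h c c.2 ⟨n, ?_⟩
    have h1 : H1π B (p ^ n • c) = 0 := by rw [map_nsmul]; exact hn
    exact (H1π_eq_zero_iff _).1 h1

end Elementwise

section Cofinal

variable {k Γ : Type u} [CommRing k] [Group Γ]

/-- **the finite-level datum**: a cofinal family of levels `W`, each presented by an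
invariant-descent datum `(π, B, e)` onto a FINITE quotient `Q`, for which the two inequalities
(31-OUT), (32-OUT) hold for all cyclic layers of order `p`. -/
def CofinalIneq (𝒰 : LevelStr Γ) (p : ℕ) (A : Rep.{u, u, u} k Γ) : Prop :=
  ∀ U ∈ 𝒰.levels, ∃ W ∈ 𝒰.levels, W ≤ U ∧
    ∃ (Q : Type u) (_ : Group Q) (_ : Finite Q) (π : Γ →* Q) (B : Rep.{u, u, u} k Q)
      (e : B →ₗ[k] A),
      IsInvDescent A π B e ∧ Function.Surjective π ∧ π.ker = W ∧
        FirstIneqOut B ⊤ p ∧ SecondIneqOut B ⊤ p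

variable {𝒰 : LevelStr Γ} {p : ℕ} {A : Rep.{u, u, u} k Γ}

/-- **33 ⇒ helper79's cofinal hypothesis, over every open subgroup.** -/
theorem cofinalH1PrimaryVanishing_res [Fact p.Prime] (h : CofinalIneq 𝒰 p A)
    (V : Subgroup Γ) (hV : IsOpenSub 𝒰 V) :
    CofinalH1PrimaryVanishing (restrictLevels 𝒰 V hV) p (Rep.res V.subtype A) := by
  rintro W' ⟨U, hU, hUV, rfl⟩
  obtain ⟨W, hW, hWU, Q, _, _, π, B, e, hdesc, hπ, hker, h31, h32⟩ := h U hU
  have hWV : W ≤ V := hWU.trans hUV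
  refine ⟨W.subgroupOf V, ⟨W, hW, hWV, rfl⟩, ?_, ?_⟩
  · intro x hx
    exact Subgroup.mem_subgroupOf.2 (hWU (Subgroup.mem_subgroupOf.1 hx))
  · refine ⟨↥(V.map π), inferInstance, resHom π V, Rep.res (V.map π).subtype B, e,
      isInvDescent_res hdesc V (hker ▸ hWV), resHom_surjective π V, ?_, ?_⟩
    · rw [resHom_ker, hker]
    · exact mem_coboundaries₁_of_pPrimary _ p
        (res_pPart_of_out h31 h32 (V.map π) le_top).1

/-- **(F1)(p) over every open subgroup**: the `p`-primary part of level `H¹(V, A)` vanishes. -/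
theorem h1PrimaryVanishes_res [Fact p.Prime] (hA : 𝒰.IsSmooth A) (h : CofinalIneq 𝒰 p A)
    (V : Subgroup Γ) (hV : IsOpenSub 𝒰 V) :
    H1PrimaryVanishes (restrictLevels 𝒰 V hV) p (Rep.res V.subtype A) :=
  h1PrimaryVanishes_of_cofinal (isSmooth_res hA hV) p (cofinalH1PrimaryVanishing_res h V hV)

end Cofinal

section Shapes

variable {k G : Type u} [CommRing k] [Group G] {𝒰 : LevelStr G} {p : ℕ} {C : Rep.{u, u, u} k G}

/-- the literal hypothesis `hC1` of `S1_67.Level` (helper67). -/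
theorem hC1_of_h1PrimaryVanishes (h : H1PrimaryVanishes 𝒰 p C) :
    ∀ c : 𝒰.H1 C, p • c = 0 → c = 0 :=
  fun c hc => h c ⟨1, by rwa [pow_one]⟩

/-- the literal hypothesis `hH1C` of `ClassLimit72` (T1) (helper72). -/
theorem hH1C_of_h1PrimaryVanishes (h : H1PrimaryVanishes 𝒰 p C) :
    ∀ (c : 𝒰.H1 C) (n : ℕ), p ^ n • c = 0 → c = 0 :=
  fun c n hc => h c ⟨n, hc⟩

open Fermat.Agent.S55.CDArith63 in
/-- the literal hypothesis `hH1Cp` of `CDArith63.h3Van_of_formation_primary'` (helper34), for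
`ρC := C.ρ`. -/
theorem hH1Cp_of_h1PrimaryVanishes (h : H1PrimaryVanishes 𝒰 p C) :
    ∀ a : G → C, 𝒰.IsConst₁ a → d12 C.ρ a = 0 →
      (∃ (n : ℕ) (γ : C), (p ^ n) • a = d01 C.ρ γ) → ∃ γ : C, d01 C.ρ γ = a := by
  intro a ha hd ⟨n, γ, hn⟩
  have hz : a ∈ cocycles₁ C := by
    rw [mem_cocycles₁_def]
    intro g g'
    have := congrFun hd (g, g')
    simp only [d12_apply, Pi.zero_apply] at this
    exact this
  have hmem : a ∈ 𝒰.Z₁ C := ⟨hz, ha⟩
  have h0 : 𝒰.H1π C ⟨a, hmem⟩ = 0 := by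
    apply h
    refine ⟨n, ?_⟩
    have h1 : p ^ n • 𝒰.H1π C ⟨a, hmem⟩ = 𝒰.H1π C (p ^ n • (⟨a, hmem⟩ : ↥(𝒰.Z₁ C))) := by
      rw [map_nsmul]
    rw [h1, LevelStr.H1π_eq_zero_iff]
    refine ⟨γ, ?_⟩
    rw [show ((p ^ n • (⟨a, hmem⟩ : ↥(𝒰.Z₁ C)) : ↥(𝒰.Z₁ C)) : G → C) = p ^ n • a from rfl, hn]
    funext g
    simp only [d₀₁_hom_apply, d01_apply]
  obtain ⟨γ', hγ'⟩ := (LevelStr.H1π_eq_zero_iff 𝒰 C _).1 h0
  refine ⟨γ', ?_⟩
  funext g
  have := congrFun hγ' g
  simp only [d₀₁_hom_apply] at this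
  simp only [d01_apply]
  exact this

end Shapes

section Final

open Fermat.Agent.S55.CDArith63

variable {k Γ : Type u} [CommRing k] [Group Γ] {𝒰 : LevelStr Γ} {p : ℕ} {A : Rep.{u, u, u} k Γ}

/-- **(F1)(p) in the literal shape of `CDArith63.h3Van_of_formation_primary'`**, over every open
subgroup `V`, with `ρC := resSub A.ρ V` (helper3's restriction), from the two inequalities at a
cofinal family of finite levels. -/
theorem hH1Cp_res [Fact p.Prime] (hA : 𝒰.IsSmooth A) (h : CofinalIneq 𝒰 p A)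
    (V : Subgroup Γ) (hV : IsOpenSub 𝒰 V) :
    ∀ a : ↥V → A, (restrictLevels 𝒰 V hV).IsConst₁ a → d12 (resSub A.ρ V) a = 0 →
      (∃ (n : ℕ) (γ : A), (p ^ n) • a = d01 (resSub A.ρ V) γ) →
        ∃ γ : A, d01 (resSub A.ρ V) γ = a :=
  hH1Cp_of_h1PrimaryVanishes (C := Rep.res V.subtype A) (h1PrimaryVanishes_res hA h V hV)

end Final

/-! ### the same below an open subgroup `V₀`

The second inequality (32-OUT) is only available for layers `N ⊴ H` whose base field `L^H` contains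
`μ_p`, i.e. for `H ≤ H₀ := π(V₀)`, `V₀ = ker (cycloChar p)`; and `(F1)(p)` is only consumed over the
open subgroups `V ≤ V₀` (`CDArith63.Global.hbase_of_ES`: `MuTriv p V`).  This is the variant with
the two inequalities required below `π(V₀)` only. -/

section Below

open Fermat.Agent.S55.CDArith63

variable {k Γ : Type u} [CommRing k] [Group Γ]

/-- the finite-level datum, with the two inequalities only for the layers below `π(V₀)`. -/
def CofinalIneqBelow (𝒰 : LevelStr Γ) (p : ℕ) (A : Rep.{u, u, u} k Γ) (V₀ : Subgroup Γ) : Prop :=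
  ∀ U ∈ 𝒰.levels, ∃ W ∈ 𝒰.levels, W ≤ U ∧
    ∃ (Q : Type u) (_ : Group Q) (_ : Finite Q) (π : Γ →* Q) (B : Rep.{u, u, u} k Q)
      (e : B →ₗ[k] A),
      IsInvDescent A π B e ∧ Function.Surjective π ∧ π.ker = W ∧
        FirstIneqOut B (V₀.map π) p ∧ SecondIneqOut B (V₀.map π) p

variable {𝒰 : LevelStr Γ} {p : ℕ} {A : Rep.{u, u, u} k Γ} {V₀ : Subgroup Γ}

theorem CofinalIneq.below (h : CofinalIneq 𝒰 p A) : CofinalIneqBelow 𝒰 p A ⊤ := by
  intro U hU
  obtain ⟨W, hW, hWU, Q, i1, i2, π, B, e, hdesc, hπ, hker, h31, h32⟩ := h U hU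
  refine ⟨W, hW, hWU, Q, i1, i2, π, B, e, hdesc, hπ, hker, ?_, ?_⟩
  · intro H _ N _ hc _ g hg
    exact h31 H le_top N hc g hg
  · intro H _ N _ hc _ g hg
    exact h32 H le_top N hc g hg

theorem cofinalH1PrimaryVanishing_res_below [Fact p.Prime] (h : CofinalIneqBelow 𝒰 p A V₀)
    (V : Subgroup Γ) (hV : IsOpenSub 𝒰 V) (hVV₀ : V ≤ V₀) :
    CofinalH1PrimaryVanishing (restrictLevels 𝒰 V hV) p (Rep.res V.subtype A) := by
  rintro W' ⟨U, hU, hUV, rfl⟩
  obtain ⟨W, hW, hWU, Q, _, _, π, B, e, hdesc, hπ, hker, h31, h32⟩ := h U hU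
  have hWV : W ≤ V := hWU.trans hUV
  refine ⟨W.subgroupOf V, ⟨W, hW, hWV, rfl⟩, ?_, ?_⟩
  · intro x hx
    exact Subgroup.mem_subgroupOf.2 (hWU (Subgroup.mem_subgroupOf.1 hx))
  · refine ⟨↥(V.map π), inferInstance, resHom π V, Rep.res (V.map π).subtype B, e,
      isInvDescent_res hdesc V (hker ▸ hWV), resHom_surjective π V, ?_, ?_⟩
    · rw [resHom_ker, hker]
    · exact mem_coboundaries₁_of_pPrimary _ p
        (res_pPart_of_out h31 h32 (V.map π) (Subgroup.map_mono hVV₀)).1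

/-- **(F1)(p) over every open subgroup `V ≤ V₀`.** -/
theorem h1PrimaryVanishes_res_below [Fact p.Prime] (hA : 𝒰.IsSmooth A)
    (h : CofinalIneqBelow 𝒰 p A V₀) (V : Subgroup Γ) (hV : IsOpenSub 𝒰 V) (hVV₀ : V ≤ V₀) :
    H1PrimaryVanishes (restrictLevels 𝒰 V hV) p (Rep.res V.subtype A) :=
  h1PrimaryVanishes_of_cofinal (isSmooth_res hA hV) p
    (cofinalH1PrimaryVanishing_res_below h V hV hVV₀)

/-- **(F1)(p) in the literal shape `hH1Cp` of `CDArith63.h3Van_of_formation_primary'`** over every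
open `V ≤ V₀`, `ρC := resSub A.ρ V`. -/
theorem hH1Cp_res_below [Fact p.Prime] (hA : 𝒰.IsSmooth A) (h : CofinalIneqBelow 𝒰 p A V₀)
    (V : Subgroup Γ) (hV : IsOpenSub 𝒰 V) (hVV₀ : V ≤ V₀) :
    ∀ a : ↥V → A, (restrictLevels 𝒰 V hV).IsConst₁ a → d12 (resSub A.ρ V) a = 0 →
      (∃ (n : ℕ) (γ : A), (p ^ n) • a = d01 (resSub A.ρ V) γ) →
        ∃ γ : A, d01 (resSub A.ρ V) γ = a :=
  hH1Cp_of_h1PrimaryVanishes (C := Rep.res V.subtype A)
    (h1PrimaryVanishes_res_below hA h V hV hVV₀)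

end Below

end Fermat.Agent.S55.Adapt77.CofinalInputs
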