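/-
S55 interface adapter (helper77): the datum `CofinalInputs.CofinalIneqBelow` for the GLOBAL level
structure `Profin15.globalLevels S` on `G_ℚ`, from one statement per finite Galois `S`-level `L`
(containing a fixed level `L₀`, e.g. `ℚ(μ_p)`):

  `∃ B e, IsInvDescent C (resL L) B e ∧ FirstIneqOut B (π_L V₀) p ∧ SecondIneqOut B (π_L V₀) p`

(`B = IdeleVal44.CS h`, `e` = helper79's (36-D)(D2) level inclusion, the two inequalities = leaves
31 and 32c-B).  Conclusion: `(F1)(p)` for the limit module `C` over EVERY open `V ≤ V₀` in the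
literal shape of `CDArith63.h3Van_of_formation_primary'`.
-/
import Fermat.Agent.S55.Adapt77.CofinalInputs
import Fermat.Agent.S55.CS79.Limit
import Fermat.Agent.S55.S1Limit41.H1Cofinal

set_option autoImplicit false

open CategoryTheory

namespace Fermat.Agent.S55.Adapt77.GlobalCofinal

open Fermat.Agent.S55.Profin15 Fermat.Agent.S55.CD3 Fermat.Agent.S55.Idele73.Basic
open Fermat.Agent.S55.CS79.InvDescent Fermat.Agent.S55.CS79.Primary Fermat.Agent.S55.CS79.Limit
open Fermat.Agent.S55.Adapt77.HcycGlue Fermat.Agent.S55.Adapt77.CofinalInputs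
open Fermat.Agent.Lib.FrobeniusExists (isAlgebraic_Qb isAlgClosure_Qb isGalois_Qb)

attribute [local instance] isAlgebraic_Qb isAlgClosure_Qb isGalois_Qb

/- (generic coefficient ring `k`, to be instantiated with `ℤ`: for an abstract `Rep ℤ G` instance
synthesis would pick `AddCommGroup.toIntModule` instead of the module structure of the
representation) -/
variable {S : Finset Nat.Primes} {p : ℕ} {k : Type} [CommRing k] {C : Rep.{0, 0, 0} k GQ}
  {V₀ : Subgroup GQ}

/-- the per-level statement: descent datum + the two inequalities below `π_L(V₀)`. -/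
def LevelIneq (p : ℕ) (C : Rep.{0, 0, 0} k GQ) (V₀ : Subgroup GQ)
    (L : IntermediateField ℚ Qbar) [Normal ℚ L] : Prop :=
  ∃ (B : Rep.{0, 0, 0} k (GalL L)) (e : B →ₗ[k] C),
    IsInvDescent C (resL L) B e ∧ FirstIneqOut B (V₀.map (resL L)) p ∧
      SecondIneqOut B (V₀.map (resL L)) p

section Mono

universe u

variable {k' G : Type u} [CommRing k'] [Group G] {A : Rep.{u, u, u} k' G} {H₀ H₁ : Subgroup G}

theorem firstIneqOut_mono (h : H₁ ≤ H₀) (h31 : FirstIneqOut A H₀ p) : FirstIneqOut A H₁ p :=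
  fun H hH N _ hc _ g hg => h31 H (hH.trans h) N hc g hg

theorem secondIneqOut_mono (h : H₁ ≤ H₀) (h32 : SecondIneqOut A H₀ p) : SecondIneqOut A H₁ p :=
  fun H hH N _ hc _ g hg => h32 H (hH.trans h) N hc g hg

end Mono

/-- constructor of the per-level statement from the producers' natural outputs: (36-D2) descent
datum, (31-OUT) for ALL layers, (32-OUT) below some `H₀ ≥ π_L(V₀)` (layers whose base field
contains `μ_p`). -/
theorem LevelIneq.mk' {L : IntermediateField ℚ Qbar} [Normal ℚ L]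
    {B : Rep.{0, 0, 0} k (GalL L)} {e : B →ₗ[k] C} (hdesc : IsInvDescent C (resL L) B e)
    (h31 : FirstIneqOut B ⊤ p) {H₀ : Subgroup (GalL L)} (hH₀ : V₀.map (resL L) ≤ H₀)
    (h32 : SecondIneqOut B H₀ p) : LevelIneq p C V₀ L :=
  ⟨B, e, hdesc, firstIneqOut_mono le_top h31, secondIneqOut_mono hH₀ h32⟩

/-- **assembly**: the per-level statements for all Galois `S`-levels `L ≥ L₀` give the cofinal
datum for `globalLevels S`. -/
theorem cofinalIneqBelow_global (L₀ : IntermediateField ℚ Qbar) (hL₀ : L₀.IsUnramifiedOutside S)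
    (hdata : ∀ (L : IntermediateField ℚ Qbar) [Normal ℚ L], L.IsUnramifiedOutside S → L₀ ≤ L →
      LevelIneq p C V₀ L) :
    CofinalIneqBelow (globalLevels S) p C V₀ := by
  intro U hU
  obtain ⟨-, F, hF, rfl⟩ := mem_globalLevels_iff.mp hU
  obtain ⟨F', hle, hF', hn'⟩ := exists_normal_unramified_ge (hF.sup hL₀)
  have := hF'.1
  have hnormal : Normal ℚ F' := ((InfiniteGalois.normal_iff_isGalois F').mp hn').to_normal
  obtain ⟨B, e, hdesc, h31, h32⟩ := hdata F' hF' (le_sup_right.trans hle)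
  refine ⟨F'.fixingSubgroup, ⟨hn', F', hF', rfl⟩, ?_, GalL F', inferInstance, ?_, resL F', B, e,
    hdesc, resL_surjective F', resL_ker F', h31, h32⟩
  · exact IntermediateField.fixingSubgroup_le (le_sup_left.trans hle)
  · exact inferInstanceAs (Finite (F' ≃ₐ[ℚ] F'))

open Fermat.Agent.S55.CDArith63 in
/-- **(F1)(p) for the limit module `C` over every open `V ≤ V₀` of `G_ℚ`**, literal shape `hH1Cp`
of `CDArith63.h3Van_of_formation_primary'` with `ρC := resSub C.ρ V`, from the per-level
statements. -/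
theorem hH1Cp_global [Fact p.Prime] (hC : (globalLevels S).IsSmooth C)
    (L₀ : IntermediateField ℚ Qbar) (hL₀ : L₀.IsUnramifiedOutside S)
    (hdata : ∀ (L : IntermediateField ℚ Qbar) [Normal ℚ L], L.IsUnramifiedOutside S → L₀ ≤ L →
      LevelIneq p C V₀ L)
    (V : Subgroup GQ) (hV : IsOpenSub (globalLevels S) V) (hVV₀ : V ≤ V₀) :
    ∀ a : ↥V → C, (restrictLevels (globalLevels S) V hV).IsConst₁ a → d12 (resSub C.ρ V) a = 0 →
      (∃ (n : ℕ) (γ : C), (p ^ n) • a = d01 (resSub C.ρ V) γ) →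
        ∃ γ : C, d01 (resSub C.ρ V) γ = a :=
  hH1Cp_res_below hC (cofinalIneqBelow_global L₀ hL₀ hdata) V hV hVV₀

/-- the same as `H1PrimaryVanishes` (helper79) on the level cohomology of `Res_V C`. -/
theorem h1PrimaryVanishes_global [Fact p.Prime] (hC : (globalLevels S).IsSmooth C)
    (L₀ : IntermediateField ℚ Qbar) (hL₀ : L₀.IsUnramifiedOutside S)
    (hdata : ∀ (L : IntermediateField ℚ Qbar) [Normal ℚ L], L.IsUnramifiedOutside S → L₀ ≤ L →
      LevelIneq p C V₀ L)
    (V : Subgroup GQ) (hV : IsOpenSub (globalLevels S) V) (hVV₀ : V ≤ V₀) :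
    H1PrimaryVanishes (restrictLevels (globalLevels S) V hV) p (Rep.res V.subtype C) :=
  h1PrimaryVanishes_res_below hC (cofinalIneqBelow_global L₀ hL₀ hdata) V hV hVV₀

/-- **helper41's finite-level input `S1Limit41.H1Cofinal.FiniteLevelH1`** (the (L-a) owner's shape
of the same seam) for `globalLevels S`, every `V ≤ V₀`, from the per-level statements. -/
theorem finiteLevelH1_global [Fact p.Prime]
    (L₀ : IntermediateField ℚ Qbar) (hL₀ : L₀.IsUnramifiedOutside S)
    (hdata : ∀ (L : IntermediateField ℚ Qbar) [Normal ℚ L], L.IsUnramifiedOutside S → L₀ ≤ L →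
      LevelIneq p C V₀ L)
    (V : Subgroup GQ) (hVV₀ : V ≤ V₀) :
    Fermat.Agent.S55.S1Limit41.H1Cofinal.FiniteLevelH1 (globalLevels S) p C V := by
  intro W hW _
  obtain ⟨W', hW', hle, Q, _, _, π, B, e, hdesc, hπ, hker, h31, h32⟩ :=
    cofinalIneqBelow_global L₀ hL₀ hdata W hW
  exact ⟨W', hW', hle, Q, inferInstance, π, B, e, hdesc, hπ, hker,
    (res_pPart_of_out h31 h32 (V.map π) (Subgroup.map_mono hVV₀)).1⟩

end Fermat.Agent.S55.Adapt77.GlobalCofinal
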