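/-
S55 / iface adapter (helper77): **conjunct (5) of `CDArith63.P1Chain.HasFormationDatum`
(the `p`-primary part of level `H¹(V, J_S/E_S)` vanishes), LITERALLY, from the two finite-level
inequalities (31-OUT), (32-OUT).**

Chain (every link is a landed theorem; nothing is re-proved here):
* helper1 `SUnit1.FirstOutFinal.firstIneqOut_CS` : (31-OUT) unconditional for odd `p`;
* helper79 `CS79.CofinalCS.finiteLevelH1_CS` : `IneqOut S p L₀ V₀ ⇒ FiniteLevelH1 … (CS S) V`
  (36-D2 + `Adapt77.GlobalCofinal`);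
* helper41 `S1Limit41.H1Cofinal.H1_primary_eq_zero_res` : `⇒` no `p`-primary torsion in the level
  `H¹(V, C_S)`;
* helper72 `ClassData72.{shortExact, isSmooth_CSl, isPrimeToP_ClS}` + helper41
  `S1Limit41.Transfer.hC1_primary_of_class` : `C_S ⇝ C'_S = J_S/E_S` (helper94's `CSp S`).

The level `L₀ = ℚ(ζ_p)` (an `S`-level as `p ∈ S`, helper72 `UnrKummer72`), `V₀ = ker (cycloChar p)`,
`H₀ = muSub p L` (`Adapt77.MuSubgroup`).
-/
import Fermat.Agent.S55.CS79.CofinalCS
import Fermat.Agent.S55.ClassData72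
import Fermat.Agent.S55.S1Limit41.Transfer
import Fermat.Agent.S55.S1Limit41.H1Cofinal
import Fermat.Agent.S55.Adapt77.MuSubgroup
import Fermat.Agent.S55.UnrKummer72
import Fermat.Agent.S55.Profin15.LESNat
import Fermat.Agent.S55.CS79.Restrict
import Fermat.Agent.S55.SUnit1.FirstOutFinal

set_option autoImplicit false

open CategoryTheory

namespace Fermat.Agent.S55.Adapt77.Conj5

open ExtCitation
open Fermat.Agent.S55.Profin15 Fermat.Agent.S55.Profin15.LevelStr
open Fermat.Agent.S55.Idele73.Basic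
open Fermat.Agent.S55.CD3
open Fermat.Agent.S55.GlobalMod94.JS
open Fermat.Agent.S55.Adapt77.HcycGlue Fermat.Agent.S55.Adapt77.MuSubgroup
open Fermat.Agent.S55.CS79.CofinalCS

variable (S : Finset Nat.Primes) (p : ℕ)

/-- **(31-OUT), all levels** (named): the first inequality for all cyclic layers of order `p` of
helper44's `C_S(L)`, every finite Galois level `L` unramified outside `S`.
PRODUCER: helper1 `SUnit1.FirstOutFinal.firstIneqOut_CS` (unconditional, `p` odd, `S ≠ ∅`). -/
def FirstIneqAll : Prop :=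
  ∀ (L : IntermediateField ℚ Qbar) [Normal ℚ L] [FiniteDimensional ℚ L]
    (h : IdeleVal44.UnrOutside L S), FirstIneqOut (IdeleVal44.CS h) ⊤ p

/-- **(32-OUT), all levels containing `μ_p`** (named): the second inequality for the cyclic layers
of order `p` below `H₀ = muSub p L = Gal(L/ℚ(μ_p))`.  PRODUCER: helper53 `SecondInst53/Output`. -/
def SecondIneqMu [Fact p.Prime] : Prop :=
  ∀ (L : IntermediateField ℚ Qbar) [Normal ℚ L] [FiniteDimensional ℚ L]
    (h : IdeleVal44.UnrOutside L S) (ζ : L), IsPrimitiveRoot ζ p →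
      SecondIneqOut (IdeleVal44.CS h) (muSub p L) p

variable {S p} [Fact p.Prime]

/-- the two named inequalities give helper79's `IneqOut` at `L₀ = ℚ(ζ_p)`, `V₀ = ker χ_p` -/
theorem ineqOut_of_all (h31 : FirstIneqAll S p) (h32 : SecondIneqMu S p) {ζ : Qbar}
    (hζ : IsPrimitiveRoot ζ p) :
    IneqOut S p (IntermediateField.adjoin ℚ {ζ}) (cycloChar p).ker := by
  intro L _ hL hle h
  have : FiniteDimensional ℚ L := hL.1
  have hζL : ζ ∈ L := hle (IntermediateField.mem_adjoin_simple_self ℚ ζ)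
  refine ⟨h31 L h, muSub p L, le_refl _, h32 L h ⟨ζ, hζL⟩ ?_⟩
  exact IsPrimitiveRoot.of_map_of_injective (f := L.val) (by simpa using hζ)
    L.val.injective

/-- **CONJUNCT (5) of `HasFormationDatum`, literally**: for every open `V` on which the mod `p`
cyclotomic character is trivial, the `p`-primary part of the level `H¹(V, J_S/E_S)` vanishes. -/
theorem h1_primary_CSp (hpS : pPrime p ∈ S) (h31 : FirstIneqAll S p) (h32 : SecondIneqMu S p)
    (V : Subgroup GQ) (hV : IsOpenSub (globalLevels S) V) (hmu : ∀ σ ∈ V, cycloChar p σ = 1)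
    (y : (restrictLevels (globalLevels S) V hV).H1 (Rep.res V.subtype (CSp S))) (n : ℕ)
    (hy : p ^ n • y = 0) : y = 0 := by
  obtain ⟨ζ, hζ⟩ : ∃ ζ : Qbar, IsPrimitiveRoot ζ p :=
    HasEnoughRootsOfUnity.exists_primitiveRoot Qbar p
  have hS : S.Nonempty := ⟨_, hpS⟩
  have hL₀ : (IntermediateField.adjoin ℚ {ζ} : IntermediateField ℚ Qbar).IsUnramifiedOutside S :=
    Fermat.Agent.S55.UnrKummer72.isUnramifiedOutside_rootOfUnity hpS hζ.pow_eq_one
  have hfin := finiteLevelH1_CS hS hL₀ (ineqOut_of_all h31 h32 hζ) V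
    (fun σ hσ => MonoidHom.mem_ker.mpr (hmu σ hσ))
  exact Fermat.Agent.S55.S1Limit41.Transfer.hC1_primary_of_class
    (restrictLevels (globalLevels S) V hV)
    ((Fermat.Agent.S55.ClassData72.shortExact S).res V.subtype)
    (Fermat.Agent.S55.CS79.Restrict.isSmooth_res (Fermat.Agent.S55.ClassData72.isSmooth_CSl S) hV)
    (Fermat.Agent.S55.ClassData72.isPrimeToP_ClS S hpS)
    (Fermat.Agent.S55.S1Limit41.H1Cofinal.H1_primary_eq_zero_res
      (Fermat.Agent.S55.ClassData72.isSmooth_CSl S) hV p hfin) y n hy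

omit [Fact p.Prime] in
/-- **(31-OUT) is unconditional** (helper1 `SUnit1.FirstOutFinal.firstIneqOut_CS`, `p` odd). -/
theorem firstIneqAll (hS : S.Nonempty) (hp : Odd p) : FirstIneqAll S p :=
  fun _ _ _ h => Fermat.Agent.S55.SUnit1.FirstOutFinal.firstIneqOut_CS h hS p hp

/-- **conjunct (5) from (32-OUT) alone** (`p` odd, `p ∈ S`). -/
theorem h1_primary_CSp_of_second (hpS : pPrime p ∈ S) (hp2 : p ≠ 2) (h32 : SecondIneqMu S p)
    (V : Subgroup GQ) (hV : IsOpenSub (globalLevels S) V) (hmu : ∀ σ ∈ V, cycloChar p σ = 1)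
    (y : (restrictLevels (globalLevels S) V hV).H1 (Rep.res V.subtype (CSp S))) (n : ℕ)
    (hy : p ^ n • y = 0) : y = 0 :=
  h1_primary_CSp hpS (firstIneqAll ⟨_, hpS⟩ ((Fact.out : p.Prime).odd_of_ne_two hp2)) h32
    V hV hmu y n hy

end Fermat.Agent.S55.Adapt77.Conj5
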