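/-
S55 interface adapter (helper77): the seam 33 → 35.

`GlobalInv91.exists_fundamental_class_of_isZero` (helper91, tower lemma) consumes, for a group `Γ`
acting on `C` and `N ⊴ Γ`:
  `h1N : IsZero (H¹(N, C))`, `h1Z : IsZero (H¹(ker χ, C))`, `hb : |H²(Γ ⧸ N, C^N)| ∣ n`.
In the application `Γ = H ≤ H₀ ≤ G = Gal(Ω/ℚ)` is a `p`-group and `C = Res_H A`, `A = C_S(Ω)`.
Here these three inputs are produced LITERALLY (same `Rep.res`/`quotientToInvariants` terms) from the
two inequalities `FirstIneqOut`, `SecondIneqOut` (31-OUT, 32-OUT) through the devissage below `H₀`.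
-/
import Fermat.Agent.S55.Adapt77.HcycGlue
import Fermat.Agent.S55.GlobalInv91.TowerFinal

set_option autoImplicit false

open CategoryTheory Rep groupCohomology

universe u

namespace Fermat.Agent.S55.Adapt77.TowerInputs

open Fermat.Agent.S55.SubQuot99 Fermat.Agent.S55.InfRes9
open Fermat.Agent.S55.Adapt77.SubQuotBelow Fermat.Agent.S55.Adapt77.HcycGlue
open Fermat.Agent.S55.GlobalInv91

variable {k G : Type u} [CommRing k] [Group G] {A : Rep.{u, u, u} k G} {H₀ : Subgroup G} {p : ℕ}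

/-- `(Γ', Res_{Γ'} Res_H A)` for `Γ' ≤ H ≤ H₀` is a subquotient of `(G, A)` below `H₀`. -/
theorem isSubQuotBelow_res_res (H : Subgroup G) (hH : H ≤ H₀) (Γ' : Subgroup H) :
    IsSubQuotBelow A H₀ Γ' (Rep.res Γ'.subtype (Rep.res H.subtype A)) := by
  refine ⟨((SubQuotData.self A).res H).res Γ', ?_⟩
  refine (res_H_le _ Γ').trans ?_
  intro g hg
  obtain ⟨h', hh', rfl⟩ := hg
  have h1 : ((SubQuotData.self A).π h') ∈ H := hh'
  have h2 : ((SubQuotData.self A).π h' : G) = (h' : G) := rfl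
  exact hH (h2 ▸ h1)

/-- `(H ⧸ N, (Res_H A)^N)` for `N ⊴ H ≤ H₀`: literal form. -/
theorem isSubQuotBelow_layer (H : Subgroup G) (hH : H ≤ H₀) (N : Subgroup H) [N.Normal] :
    IsSubQuotBelow A H₀ (H ⧸ N) ((Rep.res H.subtype A).quotientToInvariants N) :=
  isSubQuotBelow_canonical A H₀ H hH N

section

variable [Fact p.Prime] (h31 : FirstIneqOut A H₀ p) (h32 : SecondIneqOut A H₀ p)
include h31 h32

/-- **`h1N` / `h1Z`**: for `Γ' ≤ H ≤ H₀` a finite `p`-group, `H¹(Γ', Res Res A) = 0`, in the literal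
shape of `GlobalInv91.exists_fundamental_class_of_isZero` with `C := Res_H A`. -/
theorem isZero_H1_res_res (H : Subgroup G) (hH : H ≤ H₀) (Γ' : Subgroup H) [Finite Γ']
    (hΓ : IsPGroup p Γ') :
    Limits.IsZero (groupCohomology (Rep.res Γ'.subtype (Rep.res H.subtype A)) 1) :=
  ((isSubQuotBelow_res_res H hH Γ').good_of_isPGroup p (hcyc_of_out h31 h32) hΓ).1

/-- the same with `|H²(Γ', A)| ∣ |Γ'|`. -/
theorem card_H2_res_res_dvd (H : Subgroup G) (hH : H ≤ H₀) (Γ' : Subgroup H) [Finite Γ']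
    (hΓ : IsPGroup p Γ') :
    Nat.card (groupCohomology (Rep.res Γ'.subtype (Rep.res H.subtype A)) 2) ∣ Nat.card Γ' :=
  ((isSubQuotBelow_res_res H hH Γ').good_of_isPGroup p (hcyc_of_out h31 h32) hΓ).2

/-- **`hb`**: for `N ⊴ H ≤ H₀` with `H ⧸ N` a finite `p`-group, `|H²(H ⧸ N, (Res_H A)^N)|` divides
`|H ⧸ N|`, in the literal shape of `GlobalInv91.exists_fundamental_class_of_isZero`. -/
theorem card_H2_layer_dvd (H : Subgroup G) (hH : H ≤ H₀) (N : Subgroup H) [N.Normal]
    [Finite (H ⧸ N)] (hp : IsPGroup p (H ⧸ N)) :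
    Nat.card (H2 ((Rep.res H.subtype A).quotientToInvariants N)) ∣ Nat.card (H ⧸ N) :=
  (pGroup_of_out h31 h32 H hH N hp).2

theorem finite_H2_layer (H : Subgroup G) (hH : H ≤ H₀) (N : Subgroup H) [N.Normal]
    [Finite (H ⧸ N)] (hp : IsPGroup p (H ⧸ N)) :
    Finite (H2 ((Rep.res H.subtype A).quotientToInvariants N)) :=
  Nat.finite_of_card_ne_zero fun h0 =>
    Nat.card_pos.ne' (Nat.eq_zero_of_zero_dvd (h0 ▸ card_H2_layer_dvd h31 h32 H hH N hp))

/-- **The tower lemma of 35 with the inputs of 33 plugged in.**  `H ≤ H₀` a finite `p`-group,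
`N ⊴ H`, `n = |H ⧸ N|`, `χ : H → ZMod n` with `χ s = 1`, `a ∈ A^H` whose tower class dies on `N`
and has exact order `n` modulo norms: then `H²(H ⧸ N, A^N)` is cyclic of order `n`, generated by
the unique class inflating to the tower class `δχ ∪ a`. -/
theorem exists_fundamental_class_of_out (H : Subgroup G) (hH : H ≤ H₀) [Finite H]
    (hHp : IsPGroup p H) (N : Subgroup H) [N.Normal] {n : ℕ} [NeZero n]
    (hn : Nat.card (H ⧸ N) = n)
    (χ : H →* Multiplicative (ZMod n)) (s : H) (hs : chiVal χ s = 1)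
    (a : (Rep.res H.subtype A).ρ.invariants)
    (hd : IsCob₂ (res N.subtype (Rep.res H.subtype A))
      (carry (res N.subtype (Rep.res H.subtype A)) (χ.comp N.subtype) (a : Rep.res H.subtype A)))
    (hc : ∀ m : ℕ, (∃ b : Rep.res H.subtype A, (∀ z : H, χ z = 1 →
        (Rep.res H.subtype A).ρ z b = b) ∧
      m • (a : Rep.res H.subtype A) = partialNorm (Rep.res H.subtype A) s b n) → n ∣ m) :
    ∃ γ : H2 ((Rep.res H.subtype A).quotientToInvariants N),
      (infl₂ (Rep.res H.subtype A) N).hom γ = carryH2 (Rep.res H.subtype A) χ a ∧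
      addOrderOf γ = n ∧
      ∀ x : H2 ((Rep.res H.subtype A).quotientToInvariants N), ∃ j : ℤ, x = j • γ := by
  have hq : IsPGroup p (H ⧸ N) := hHp.to_quotient N
  have : Finite (H ⧸ N) := inferInstance
  have := finite_H2_layer h31 h32 H hH N hq
  exact exists_fundamental_class_of_isZero (Rep.res H.subtype A) N
    (isZero_H1_res_res h31 h32 H hH N (hHp.to_subgroup N))
    χ s hs
    (isZero_H1_res_res h31 h32 H hH χ.ker (hHp.to_subgroup χ.ker))
    a hd hc (hn ▸ card_H2_layer_dvd h31 h32 H hH N hq)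

end

end Fermat.Agent.S55.Adapt77.TowerInputs
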