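/-
S55 interface adapter (helper77): the seam 33 → 35-GEN (`p`-primary form, arbitrary finite `Γ`).

`GlobalInv91.exists_fundamental_class_of_inv` (helper91, `Gen.lean`) consumes, for a finite group
`Γ` acting on `C`, `N ⊴ Γ` a `p`-group, `χ : Γ → ZMod n`, `n = p ^ e`:
  `h1N  : IsZero (H¹(N, C))`,
  `hH1Z : every 1-cocycle of ker χ becomes a coboundary after multiplication by m'`, `m' ⊥ n`,
  `hb   : |H²(Γ ⧸ N, C^N)(p)| ∣ n`,  `hidx : n ∣ [Γ : N]`.
Here the four are produced for EVERY pair `(Γ, C)` which is a subquotient of `(G, A)` below `H₀`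
(`Adapt77.SubQuotBelow.IsSubQuotBelow`; e.g. `C = Res_H A`, or `C = (Res_H A)^{N₀}` on `H ⧸ N₀`)
from the two inequalities `FirstIneqOut`, `SecondIneqOut` (31-OUT, 32-OUT), with
`n := p ^ v_p([Γ : N])`.
-/
import Fermat.Agent.S55.Adapt77.TowerInputs
import Fermat.Agent.S55.GlobalInv91.Gen

set_option autoImplicit false

open CategoryTheory Rep groupCohomology

universe u

namespace Fermat.Agent.S55.Adapt77.TowerInputsP

open Fermat.Agent.S55.SubQuot99 Fermat.Agent.S55.InfRes9
open Fermat.Agent.S55.Adapt77.SubQuotBelow Fermat.Agent.S55.Adapt77.HcycGlue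
open Fermat.Agent.S55.Adapt77.TowerInputs
open Fermat.Agent.S55.GlobalInv91

section Weak

variable {k Γ : Type u} [CommRing k] [Group Γ] (C : Rep.{u, u, u} k Γ)

/-- **weak `H¹`**: if the `p`-primary part of `H¹(Z, C)` vanishes (`Z` a finite subgroup) then every
`1`-cocycle of `Z` (function form) becomes a coboundary after multiplication by the prime-to-`p`
part `m'` of `|Z|`. -/
theorem exists_coprime_nsmul_cob (Z : Subgroup Γ) [Finite Z] (p : ℕ) [Fact p.Prime]
    (h : ∀ x : groupCohomology (Rep.res Z.subtype C) 1, (∃ n : ℕ, p ^ n • x = 0) → x = 0) :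
    ∃ m' : ℕ, Nat.Coprime m' p ∧
      ∀ f : Z → C, (∀ z w : Z, f (z * w) = C.ρ (z : Γ) (f w) + f z) →
        ∃ y : C, ∀ z : Z, m' • f z = C.ρ (z : Γ) y - y := by
  have hp : p.Prime := Fact.out
  have hcard : Nat.card Z ≠ 0 := Nat.card_pos.ne'
  refine ⟨Nat.card Z / p ^ (Nat.card Z).factorization p,
    (Nat.coprime_ordCompl hp hcard).symm, fun f hf => ?_⟩
  set m' := Nat.card Z / p ^ (Nat.card Z).factorization p with hm'
  have hfz : f ∈ cocycles₁ (Rep.res Z.subtype C) := by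
    rw [mem_cocycles₁_def]
    intro g g'
    rw [hf g g']
    show C.ρ (g : Γ) (f g') - (C.ρ (g : Γ) (f g') + f g) + f g = 0
    abel
  have h0 : m' • H1π (Rep.res Z.subtype C) ⟨f, hfz⟩ = 0 := by
    apply h
    refine ⟨(Nat.card Z).factorization p, ?_⟩
    rw [← mul_nsmul', hm', Nat.ordProj_mul_ordCompl_eq_self]
    exact card_smul_eq_zero_one (Rep.res Z.subtype C) _
  have h1 : H1π (Rep.res Z.subtype C) (m' • (⟨f, hfz⟩ : cocycles₁ (Rep.res Z.subtype C))) = 0 := by
    rw [map_nsmul]; exact h0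
  rw [H1π_eq_zero_iff] at h1
  obtain ⟨y, hy⟩ := h1
  refine ⟨y, fun z => ?_⟩
  have := congrFun hy z
  simp only [d₀₁_hom_apply] at this
  exact this.symm

end Weak

variable {k G : Type u} [CommRing k] [Group G] {A : Rep.{u, u, u} k G} {H₀ : Subgroup G} {p : ℕ}

/-- `(H, Res_H A)` for `H ≤ H₀` is a subquotient of `(G, A)` below `H₀` (use it, or
`TowerInputs.isSubQuotBelow_layer H hH N₀` for `(H ⧸ N₀, (Res_H A)^{N₀})`, as `hC` below). -/
theorem isSubQuotBelow_res (H : Subgroup G) (hH : H ≤ H₀) :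
    IsSubQuotBelow A H₀ H (Rep.res H.subtype A) := by
  refine ⟨(SubQuotData.self A).res H, ?_⟩
  intro g hg
  obtain ⟨h', hh', rfl⟩ := hg
  have h1 : ((SubQuotData.self A).π h') ∈ H := hh'
  have h2 : ((SubQuotData.self A).π h' : G) = (h' : G) := rfl
  exact hH (h2 ▸ h1)

section

variable [Fact p.Prime] (h31 : FirstIneqOut A H₀ p) (h32 : SecondIneqOut A H₀ p)
  {Γ : Type u} [Group Γ] {C : Rep.{u, u, u} k Γ} (hC : IsSubQuotBelow A H₀ Γ C)
include h31 h32 hC

/-- **`h1N`** for a finite `p`-subgroup of a subquotient below `H₀`. -/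
theorem isZero_H1_res_of_below (N : Subgroup Γ) [Finite N] (hN : IsPGroup p N) :
    Limits.IsZero (groupCohomology (Rep.res N.subtype C) 1) :=
  (((closed_isSubQuotBelow A H₀).res Γ C hC N).good_of_isPGroup p (hcyc_of_out h31 h32) hN).1

/-- `p`-primary vanishing of `H¹` and the bound for `H²(p)` for ANY finite subgroup of a subquotient
below `H₀`. -/
theorem pPart_res_of_below (Z : Subgroup Γ) [Finite Z] :
    (∀ x : groupCohomology (Rep.res Z.subtype C) 1, (∃ n : ℕ, p ^ n • x = 0) → x = 0) ∧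
      Nat.card (pPrimary p (groupCohomology (Rep.res Z.subtype C) 2)) ∣
        p ^ (Nat.card Z).factorization p :=
  ((closed_isSubQuotBelow A H₀).res Γ C hC Z).pPart p (hcyc_of_out h31 h32)

/-- **`hH1Z`**: the weak `H¹` hypothesis of `GlobalInv91.exists_fundamental_class_of_inv` for any
finite subgroup `Z` (in the application `Z = ker χ`). -/
theorem exists_coprime_nsmul_cob_of_below (Z : Subgroup Γ) [Finite Z] :
    ∃ m' : ℕ, Nat.Coprime m' p ∧
      ∀ f : Z → C, (∀ z w : Z, f (z * w) = C.ρ (z : Γ) (f w) + f z) →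
        ∃ y : C, ∀ z : Z, m' • f z = C.ρ (z : Γ) y - y :=
  exists_coprime_nsmul_cob C Z p (pPart_res_of_below h31 h32 hC Z).1

/-- **`hb`**: `|H²(Γ ⧸ N, C^N)(p)|` divides `p ^ v_p([Γ : N])`. -/
theorem card_pPrimary_H2_quot_of_below (N : Subgroup Γ) [N.Normal] [Finite (Γ ⧸ N)] :
    Nat.card (pPrimary p (H2 (C.quotientToInvariants N))) ∣
      p ^ (Nat.card (Γ ⧸ N)).factorization p :=
  (((closed_isSubQuotBelow A H₀).quot Γ C hC N).pPart p (hcyc_of_out h31 h32)).2

/-- `p`-primary vanishing of `H¹(Γ ⧸ N, C^N)`. -/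
theorem pPrimary_H1_quot_of_below (N : Subgroup Γ) [N.Normal] [Finite (Γ ⧸ N)] :
    ∀ x : groupCohomology (C.quotientToInvariants N) 1, (∃ n : ℕ, p ^ n • x = 0) → x = 0 :=
  (((closed_isSubQuotBelow A H₀).quot Γ C hC N).pPart p (hcyc_of_out h31 h32)).1

theorem finite_pPrimary_H2_quot_of_below (N : Subgroup Γ) [N.Normal] [Finite (Γ ⧸ N)] :
    Finite (pPrimary p (H2 (C.quotientToInvariants N))) :=
  Nat.finite_of_card_ne_zero fun h0 => by
    have hp : p.Prime := Fact.out
    have := card_pPrimary_H2_quot_of_below h31 h32 hC N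
    rw [h0] at this
    exact (pow_pos hp.pos _).ne' (Nat.eq_zero_of_zero_dvd this)

/-- **(35-GEN) with the inputs of 33 plugged in.**  `(Γ, C)` a finite subquotient of `(G, A)` below
`H₀`, `N ⊴ Γ` a `p`-group, `n = p ^ v_p([Γ : N])`.  What remains are the invariant maps
(`invJ`, `invJN`, `invCN`: 22 + 36b + the cyclic layer over `L`), the tower character `χ` and the
tower class data `a`, `c'`, `hc` (34 + the cyclic layer over `K`). -/
theorem exists_fundamental_class_of_inv_of_below [Finite Γ] {J : Rep.{u, u, u} k Γ} (π : J ⟶ C)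
    (N : Subgroup Γ) [N.Normal] (hN : IsPGroup p N) {n : ℕ} [NeZero n]
    (hn : n = p ^ (Nat.card (Γ ⧸ N)).factorization p)
    {T : Type*} [AddCommGroup T]
    (χ : Γ →* Multiplicative (ZMod n)) (s : Γ) (hs : chiVal χ s = 1)
    (invJ : H2 J →+ T) (invJN : H2 (res N.subtype J) →+ T)
    (hJ1 : ∀ y : H2 J, invJN ((res₂ J N).hom y) = N.index • invJ y)
    (invCN : H2 (res N.subtype C) →+ T) (hinjN : Function.Injective invCN)
    (hcompN : ∀ x : H2 (res N.subtype J), invCN ((pushS₂ π N).hom x) = invJN x)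
    (a : C.ρ.invariants) (c' : H2 J) (hc' : n • c' = 0)
    (hπ : (push₂ π).hom c' = carryH2 C χ a)
    (hc : ∀ m : ℕ, (∃ b : C, (∀ z : Γ, χ z = 1 → C.ρ z b = b) ∧
      m • (a : C) = partialNorm C s b n) → n ∣ m) :
    ∃ γ : H2 (C.quotientToInvariants N), (infl₂ C N).hom γ = carryH2 C χ a ∧
      addOrderOf γ = n ∧
      (∀ x : H2 (C.quotientToInvariants N), (∃ j : ℕ, p ^ j • x = 0) → ∃ j : ℤ, x = j • γ) ∧
      ∀ x : H2 (C.quotientToInvariants N), (∃ j : ℕ, p ^ j • x = 0) →
        ∃ y : H2 J, n • y = 0 ∧ (push₂ π).hom y = (infl₂ C N).hom x := by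
  have hp : p.Prime := Fact.out
  obtain ⟨m', hm', hH1Z⟩ := exists_coprime_nsmul_cob_of_below h31 h32 hC χ.ker
  have := finite_pPrimary_H2_quot_of_below h31 h32 hC N
  have hidx : n ∣ N.index := by
    rw [hn, Subgroup.index_eq_card]
    exact Nat.ordProj_dvd _ _
  exact exists_fundamental_class_of_inv π N p hn
    (isZero_H1_res_of_below h31 h32 hC N hN) χ s hs
    (hn ▸ Nat.Coprime.pow_right _ hm') hH1Z
    (hn ▸ card_pPrimary_H2_quot_of_below h31 h32 hC N)
    invJ invJN hJ1 invCN hinjN hcompN hidx a c' hc' hπ hc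

end

end Fermat.Agent.S55.Adapt77.TowerInputsP
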