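/-
S55 / iface (helper77): **LEAF 33 IS UNCONDITIONAL.**  Composition of the two landed inequalities

* (31-OUT) helper1 `SUnit1.FirstOutFinal.firstIneqOut_CS` (first inequality, all cyclic layers of odd
  order `p` of helper44's `C_S(L)`),
* (32-OUT) helper30 `SecondInst30.SecondIneqOut.secondIneqOut` (second inequality for the layers
  fixing `ζ_p ∈ L`; its only input is (31-OUT) at the bigger levels),

through helper19's `MuLevel19`, helper35's `CLDescent35.OutTop` (32-OUT below `H₀` ⇒ 32-OUT for all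
layers), helper79's `CS79.CofinalCS` (36-D2) and `Adapt77.Conj5`:

* `firstIneqOut_CS`, `secondIneqOut_mu`, `secondIneqOut_top` : the inequalities for `C_S(L)`, every
  Galois `S`-level `L ∋ ζ_p`, `p ∈ S` odd — NO hypothesis;
* `pPart_res_CS` : for EVERY subgroup `H ≤ Gal(L/ℚ)`: `H¹(H, C_S(L))(p) = 0` and
  `|H²(H, C_S(L))(p)| ∣ p^{v_p |H|}`;
* `ineqOut` : helper79's `IneqOut S p ℚ(ζ_p) (ker χ_p)`;
* `h1PrimaryVanishes_CS_res` : (F1)(p) for the true class module `C_S` over every open `V` fixing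
  `μ_p`;
* `h1_primary_CSp` : **conjunct (5) of `CDArith63.P1Chain.HasFormationDatum`, unconditional**;
  `hC1` : the `p`-torsion form (46-S1 `hC1`).
-/
import Fermat.Agent.S55.Adapt77.Conj5
import Fermat.Agent.S55.SecondInst30.SecondIneqOut
import Fermat.Agent.S55.MuLevel19
import Fermat.Agent.S55.CLDescent35.OutTop

set_option autoImplicit false

open CategoryTheory groupCohomology

namespace Fermat.Agent.S55.Adapt77.Leaf33Final

open ExtCitation
open Fermat.Agent.S55.Profin15 Fermat.Agent.S55.Profin15.LevelStr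
open Fermat.Agent.S55.Idele73.Basic
open Fermat.Agent.S55.CD3
open Fermat.Agent.S55.GlobalMod94.JS
open Fermat.Agent.S55.Adapt77.HcycGlue Fermat.Agent.S55.Adapt77.MuSubgroup
open Fermat.Agent.S55.Adapt77.Conj5
open Fermat.Agent.S55.CS79.CofinalCS Fermat.Agent.S55.CS79.Primary
open Fermat.Agent.S55.InfRes9

variable {S : Finset Nat.Primes} {p : ℕ} [Fact p.Prime]

theorem odd_of_ne_two (hp2 : p ≠ 2) : Odd p := (Fact.out : p.Prime).odd_of_ne_two hp2

theorem two_lt_of_ne_two (hp2 : p ≠ 2) : 2 < p :=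
  lt_of_le_of_ne (Fact.out : p.Prime).two_le (Ne.symm hp2)

section Level

variable {L : IntermediateField ℚ Qbar} [Normal ℚ L] [FiniteDimensional ℚ L]

/-- **(31-OUT)**, unconditional (helper1). -/
theorem firstIneqOut_CS (hS : S.Nonempty) (hp2 : p ≠ 2) (h : IdeleVal44.UnrOutside L S) :
    FirstIneqOut (IdeleVal44.CS h) ⊤ p :=
  Fermat.Agent.S55.SUnit1.FirstOutFinal.firstIneqOut_CS h hS p (odd_of_ne_two hp2)

/-- **(32-OUT) below `H₀ = muSub p L`**, unconditional (helper30 + helper1 + helper19). -/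
theorem secondIneqOut_mu (hpS : pPrime p ∈ S) (hp2 : p ≠ 2) (hL : L.IsUnramifiedOutside S)
    (h : IdeleVal44.UnrOutside L S) (ζ : ↥L) (hζ : IsPrimitiveRoot ζ p) :
    SecondIneqOut (IdeleVal44.CS h) (muSub p L) p := by
  have hS : S.Nonempty := ⟨_, hpS⟩
  refine Fermat.Agent.S55.SecondInst30.SecondIneqOut.secondIneqOut (two_lt_of_ne_two hp2) hpS hL h
    ζ hζ (muSub p L) ?_ ?_
  · intro s hs
    have hζp : ((ζ : ↥L) : Qbar) ^ p = 1 := by
      have := congrArg (fun x : ↥L => (x : Qbar)) hζ.pow_eq_one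
      simpa using this
    exact Fermat.Agent.S55.MuLevel19.fixes_of_mem_map_ker p L hζp ζ.2 hs
  · intro S' hSS' L' _ _ _ h'
    exact Fermat.Agent.S55.SUnit1.FirstOutFinal.firstIneqOut_CS h' (hS.mono hSS') p
      (odd_of_ne_two hp2)

/-- **(32-OUT) for ALL layers**, unconditional (helper35's norm-index reduction). -/
theorem secondIneqOut_top (hpS : pPrime p ∈ S) (hp2 : p ≠ 2) (hL : L.IsUnramifiedOutside S)
    (h : IdeleVal44.UnrOutside L S) (ζ : ↥L) (hζ : IsPrimitiveRoot ζ p) :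
    SecondIneqOut (IdeleVal44.CS h) ⊤ p :=
  Fermat.Agent.S55.CLDescent35.OutTop.secondIneqOut_top (secondIneqOut_mu hpS hp2 hL h ζ hζ)

/-- **33-OUT for every subgroup** `H ≤ Gal(L/ℚ)` (any base field `L^H`): no `p`-primary torsion in
`H¹(H, C_S(L))`, and `|H²(H, C_S(L))(p)| ∣ p^{v_p |H|}`. -/
theorem pPart_res_CS (hpS : pPrime p ∈ S) (hp2 : p ≠ 2) (hL : L.IsUnramifiedOutside S)
    (h : IdeleVal44.UnrOutside L S) (ζ : ↥L) (hζ : IsPrimitiveRoot ζ p) (H : Subgroup (GalL L)) :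
    (∀ x : groupCohomology (Rep.res H.subtype (IdeleVal44.CS h)) 1,
        (∃ n : ℕ, p ^ n • x = 0) → x = 0) ∧
      Nat.card (pPrimary p (groupCohomology (Rep.res H.subtype (IdeleVal44.CS h)) 2)) ∣
        p ^ (Nat.card H).factorization p :=
  haveI : Finite (GalL L) := inferInstanceAs (Finite (L ≃ₐ[ℚ] L))
  res_pPart_of_out (firstIneqOut_CS ⟨_, hpS⟩ hp2 h) (secondIneqOut_top hpS hp2 hL h ζ hζ) H le_top

end Level

/-- the (named) second inequality of `Adapt77.Conj5` with the ramification hypothesis spelled in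
the Prelude vocabulary as well — this is what helper30's theorem consumes. -/
theorem ineqOut (hpS : pPrime p ∈ S) (hp2 : p ≠ 2) {ζ : Qbar} (hζ : IsPrimitiveRoot ζ p) :
    IneqOut S p (IntermediateField.adjoin ℚ {ζ}) (cycloChar p).ker := by
  intro L _ hL hle h
  have : FiniteDimensional ℚ L := hL.1
  have hζL : ζ ∈ L := hle (IntermediateField.mem_adjoin_simple_self ℚ ζ)
  have hζ' : IsPrimitiveRoot (⟨ζ, hζL⟩ : ↥L) p :=
    IsPrimitiveRoot.of_map_of_injective (f := L.val) (by simpa using hζ) L.val.injective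
  exact ⟨firstIneqOut_CS ⟨_, hpS⟩ hp2 h, muSub p L, le_refl _,
    secondIneqOut_mu hpS hp2 hL h ⟨ζ, hζL⟩ hζ'⟩

theorem exists_primitiveRoot (p : ℕ) [Fact p.Prime] : ∃ ζ : Qbar, IsPrimitiveRoot ζ p :=
  HasEnoughRootsOfUnity.exists_primitiveRoot Qbar p

/-- **(F1)(p) for the true class module `C_S`** over every open subgroup fixing `μ_p`:
unconditional. -/
theorem h1PrimaryVanishes_CS_res (hpS : pPrime p ∈ S) (hp2 : p ≠ 2) (V : Subgroup GQ)
    (hV : IsOpenSub (globalLevels S) V) (hmu : ∀ σ ∈ V, cycloChar p σ = 1) :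
    H1PrimaryVanishes (restrictLevels (globalLevels S) V hV) p (Rep.res V.subtype (CS S)) := by
  obtain ⟨ζ, hζ⟩ := exists_primitiveRoot p
  exact Fermat.Agent.S55.CS79.CofinalCS.h1PrimaryVanishes_CS_res ⟨_, hpS⟩
    (Fermat.Agent.S55.UnrKummer72.isUnramifiedOutside_rootOfUnity hpS hζ.pow_eq_one)
    (ineqOut hpS hp2 hζ) V hV (fun σ hσ => MonoidHom.mem_ker.mpr (hmu σ hσ))

/-- helper41's `FiniteLevelH1` for `C_S`, unconditional. -/
theorem finiteLevelH1_CS (hpS : pPrime p ∈ S) (hp2 : p ≠ 2) (V : Subgroup GQ)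
    (hmu : ∀ σ ∈ V, cycloChar p σ = 1) :
    Fermat.Agent.S55.S1Limit41.H1Cofinal.FiniteLevelH1 (globalLevels S) p (CS S) V := by
  obtain ⟨ζ, hζ⟩ := exists_primitiveRoot p
  exact Fermat.Agent.S55.CS79.CofinalCS.finiteLevelH1_CS ⟨_, hpS⟩
    (Fermat.Agent.S55.UnrKummer72.isUnramifiedOutside_rootOfUnity hpS hζ.pow_eq_one)
    (ineqOut hpS hp2 hζ) V (fun σ hσ => MonoidHom.mem_ker.mpr (hmu σ hσ))

/-- **CONJUNCT (5) of `CDArith63.P1Chain.HasFormationDatum`, UNCONDITIONAL**: for `p` odd, `p ∈ S`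
and every open `V` on which the mod `p` cyclotomic character is trivial, the `p`-primary part of the
level `H¹(V, J_S/E_S)` vanishes. -/
theorem h1_primary_CSp (hpS : pPrime p ∈ S) (hp2 : p ≠ 2) (V : Subgroup GQ)
    (hV : IsOpenSub (globalLevels S) V) (hmu : ∀ σ ∈ V, cycloChar p σ = 1)
    (y : (restrictLevels (globalLevels S) V hV).H1 (Rep.res V.subtype (CSp S))) (n : ℕ)
    (hy : p ^ n • y = 0) : y = 0 := by
  obtain ⟨ζ, hζ⟩ := exists_primitiveRoot p
  exact Fermat.Agent.S55.S1Limit41.Transfer.hC1_primary_of_class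
    (restrictLevels (globalLevels S) V hV)
    ((Fermat.Agent.S55.ClassData72.shortExact S).res V.subtype)
    (Fermat.Agent.S55.CS79.Restrict.isSmooth_res (Fermat.Agent.S55.ClassData72.isSmooth_CSl S) hV)
    (Fermat.Agent.S55.ClassData72.isPrimeToP_ClS S hpS)
    (Fermat.Agent.S55.S1Limit41.H1Cofinal.H1_primary_eq_zero_res
      (Fermat.Agent.S55.ClassData72.isSmooth_CSl S) hV p (finiteLevelH1_CS hpS hp2 V hmu)) y n hy

/-- the `p`-torsion form (`hC1` of 46-S1 / `S1Limit41.Global.hC1V`), unconditional. -/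
theorem hC1 (hpS : pPrime p ∈ S) (hp2 : p ≠ 2) (V : Subgroup GQ)
    (hV : IsOpenSub (globalLevels S) V) (hmu : ∀ σ ∈ V, cycloChar p σ = 1)
    (y : (restrictLevels (globalLevels S) V hV).H1 (Rep.res V.subtype (CSp S)))
    (hy : p • y = 0) : y = 0 :=
  h1_primary_CSp hpS hp2 V hV hmu y 1 (by rwa [pow_one])

end Fermat.Agent.S55.Adapt77.Leaf33Final
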