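/-
S55 / iface (helper77): **the 33-fields of helper91's `GlobalInv91.FinLayerHyp` and of
`FinLayerHyp.alpha_desc`, LITERALLY and UNCONDITIONALLY, on the D2 sequence.**

`Ω` a Galois `S`-level containing `ζ_p` (`p ∈ S` odd), `h : UnrOutside Ω S`, `H ≤ Gal(Ω/ℚ)` any
subgroup (`= V.map (resL Ω)`), `Y := (IdeleVal44.sesJIS h).map (Rep.resFunctor H.subtype)`
(`= CLDescent35.Hilbert90.sesRes h H`), `χ : H →* Multiplicative (ZMod (p ^ m))` with
`chiVal χ s = 1`:

* `h1ZC`   : field `h1ZC` of `FinLayerHyp Y p m χ invJ`;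
* `cardZ`  : field `cardZ`;
* `hb`     : binder `hb` of `alpha_desc` for `B = Res (CS h)` at the level itself, with
             `p ^ m = p ^ v_p |H|`;
* `h1N`    : binder `h1N` of `alpha_desc` for a `p`-subgroup `N` (e.g. `q.ker = Gal(Ω·K_m/Ω)`);
* `hH1Z`, `pPart` : the function forms.

Generic versions (`A` any `Rep ℤ G` with both inequalities at `⊤`) first.
-/
import Fermat.Agent.S55.Adapt77.Leaf33Final
import Fermat.Agent.S55.GlobalInv91.InstFin
import Fermat.Agent.S55.CLDescent35.Hilbert90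

set_option autoImplicit false

open CategoryTheory groupCohomology Rep

namespace Fermat.Agent.S55.Adapt77.FinLayer33

open ExtCitation
open Fermat.Agent.S55.Idele73.Basic
open Fermat.Agent.S55.Adapt77.HcycGlue Fermat.Agent.S55.Adapt77.SubQuotBelow
open Fermat.Agent.S55.Adapt77.TowerInputsP
open Fermat.Agent.S55.InfRes9 Fermat.Agent.S55.GlobalInv91

section Generic

variable {G : Type} [Group G] {A : Rep.{0, 0, 0} ℤ G} {p : ℕ} [Fact p.Prime]
  (h31 : FirstIneqOut A ⊤ p) (h32 : SecondIneqOut A ⊤ p) (H : Subgroup G) [Finite H]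
include h31 h32

/-- `h1ZC` for `C = Res_H A`, any subgroup `Z ≤ H`. -/
theorem h1ZC_res (Z : Subgroup H) :
    ∀ x : H1 (res Z.subtype ((Rep.resFunctor H.subtype).obj A)),
      (∃ j : ℕ, p ^ j • x = 0) → x = 0 :=
  (pPart_res_of_below h31 h32 (isSubQuotBelow_res (A := A) H le_top) Z).1

/-- `|H²(Z, Res_H A)(p)| ∣ p ^ v_p |Z|`. -/
theorem card_H2_res (Z : Subgroup H) :
    Nat.card (pPrimary p (H2 (res Z.subtype ((Rep.resFunctor H.subtype).obj A)))) ∣
      p ^ (Nat.card Z).factorization p :=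
  (pPart_res_of_below h31 h32 (isSubQuotBelow_res (A := A) H le_top) Z).2

/-- `h1N`: full vanishing of `H¹(N, Res_H A)` for a `p`-subgroup `N ≤ H`. -/
theorem h1N_res (N : Subgroup H) (hN : IsPGroup p N) :
    Limits.IsZero (groupCohomology (res N.subtype ((Rep.resFunctor H.subtype).obj A)) 1) :=
  isZero_H1_res_of_below h31 h32 (isSubQuotBelow_res (A := A) H le_top) N hN

/-- `|H²(H ⧸ N, (Res_H A)^N)(p)| ∣ p ^ v_p [H : N]`. -/
theorem card_H2_quot (N : Subgroup H) [N.Normal] :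
    Nat.card (pPrimary p
      (H2 (((Rep.resFunctor H.subtype).obj A).quotientToInvariants N))) ∣
      p ^ (Nat.card (H ⧸ N)).factorization p :=
  card_pPrimary_H2_quot_of_below h31 h32 (isSubQuotBelow_res (A := A) H le_top) N

/-- `cardZ` for a character `χ : H → ZMod (p ^ m)` taking the value `1`. -/
theorem cardZ_res {m : ℕ} (χ : H →* Multiplicative (ZMod (p ^ m))) {s : H}
    (hs : chiVal χ s = 1) :
    Nat.card (pPrimary p
      (H2 (((Rep.resFunctor H.subtype).obj A).quotientToInvariants χ.ker))) ∣ p ^ m := by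
  have hp : p.Prime := Fact.out
  have h := card_H2_quot h31 h32 H χ.ker
  rwa [card_quot hs, hp.factorization_pow, Finsupp.single_eq_same] at h

/-- `hH1Z` (function form) for any subgroup `Z ≤ H`. -/
theorem hH1Z_res (Z : Subgroup H) :
    ∃ m' : ℕ, Nat.Coprime m' p ∧
      ∀ f : Z → ((Rep.resFunctor H.subtype).obj A),
        (∀ z w : Z, f (z * w) = ((Rep.resFunctor H.subtype).obj A).ρ (z : H) (f w) + f z) →
        ∃ y : ((Rep.resFunctor H.subtype).obj A),
          ∀ z : Z, m' • f z = ((Rep.resFunctor H.subtype).obj A).ρ (z : H) y - y :=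
  exists_coprime_nsmul_cob_of_below h31 h32 (isSubQuotBelow_res (A := A) H le_top) Z

end Generic

section D2

open Fermat.Agent.S55.Adapt77.Leaf33Final Fermat.Agent.S55.CLDescent35.Hilbert90
open Fermat.Agent.S55.IdeleVal44

variable {S : Finset Nat.Primes} {p : ℕ} [Fact p.Prime]
  {Ω : IntermediateField ℚ Qbar} [Normal ℚ Ω] [FiniteDimensional ℚ Ω]
  (hpS : pPrime p ∈ S) (hp2 : p ≠ 2) (hΩ : Ω.IsUnramifiedOutside S)
  (h : IdeleVal44.UnrOutside Ω S) (ζ : ↥Ω) (hζ : IsPrimitiveRoot ζ p) (H : Subgroup (GalL Ω))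
include hpS hp2 hΩ ζ hζ

instance : Finite (GalL Ω) := inferInstanceAs (Finite (Ω ≃ₐ[ℚ] Ω))

/-- field **`h1ZC`** of `FinLayerHyp (sesRes h H) p m χ invJ` -/
theorem h1ZC {m : ℕ} (χ : H →* Multiplicative (ZMod (p ^ m))) :
    ∀ x : H1 (res χ.ker.subtype (sesRes h H).X₃), (∃ j : ℕ, p ^ j • x = 0) → x = 0 :=
  h1ZC_res (firstIneqOut_CS ⟨_, hpS⟩ hp2 h) (secondIneqOut_top hpS hp2 hΩ h ζ hζ) H χ.ker

/-- field **`cardZ`** of `FinLayerHyp (sesRes h H) p m χ invJ` -/
theorem cardZ {m : ℕ} (χ : H →* Multiplicative (ZMod (p ^ m))) {s : H} (hs : chiVal χ s = 1) :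
    Nat.card (pPrimary p (H2 ((sesRes h H).X₃.quotientToInvariants χ.ker))) ∣ p ^ m :=
  cardZ_res (firstIneqOut_CS ⟨_, hpS⟩ hp2 h) (secondIneqOut_top hpS hp2 hΩ h ζ hζ) H χ hs

/-- binder **`hb`** of `alpha_desc` at the level `Ω` itself (`B := (sesRes h H).X₃`). -/
theorem hb {m : ℕ} (hm : (Nat.card H).factorization p = m) :
    Nat.card (pPrimary p (H2 (sesRes h H).X₃)) ∣ p ^ m :=
  hm ▸ (pPart_res_CS hpS hp2 hΩ h ζ hζ H).2

/-- binder **`h1N`** of `alpha_desc` for a `p`-subgroup `N ≤ H`. -/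
theorem h1N (N : Subgroup H) (hN : IsPGroup p N) :
    Limits.IsZero (groupCohomology (res N.subtype (sesRes h H).X₃) 1) :=
  h1N_res (firstIneqOut_CS ⟨_, hpS⟩ hp2 h) (secondIneqOut_top hpS hp2 hΩ h ζ hζ) H N hN

/-- `hH1Z` in function form. -/
theorem hH1Z (Z : Subgroup H) :
    ∃ m' : ℕ, Nat.Coprime m' p ∧
      ∀ f : Z → (sesRes h H).X₃,
        (∀ z w : Z, f (z * w) = (sesRes h H).X₃.ρ (z : H) (f w) + f z) →
        ∃ y : (sesRes h H).X₃, ∀ z : Z, m' • f z = (sesRes h H).X₃.ρ (z : H) y - y :=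
  hH1Z_res (firstIneqOut_CS ⟨_, hpS⟩ hp2 h) (secondIneqOut_top hpS hp2 hΩ h ζ hζ) H Z

/-- the layer bound for ANY normal subgroup `N ⊴ H`. -/
theorem card_H2_layer (N : Subgroup H) [N.Normal] :
    Nat.card (pPrimary p (H2 ((sesRes h H).X₃.quotientToInvariants N))) ∣
      p ^ (Nat.card (H ⧸ N)).factorization p :=
  card_H2_quot (firstIneqOut_CS ⟨_, hpS⟩ hp2 h) (secondIneqOut_top hpS hp2 hΩ h ζ hζ) H N

end D2

end Fermat.Agent.S55.Adapt77.FinLayer33
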