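/-
S55 / iface (helper77): the 33-fields of `GlobalInv91.FinLayerHyp` on the D2 family of an open
subgroup `V` fixing `μ_p`, in helper79's index vocabulary (`CS79.FormationCS.LevV S V`,
`HV S V i = V.map (resL i.1.1)`), with the primitive root eliminated:
`ζ_p ∈ L` for every Galois level `L` with `ker (resL L) ≤ V` (`V` fixes `μ_p`).
-/
import Fermat.Agent.S55.Adapt77.FinLayer33
import Fermat.Agent.S55.CS79.FormationCS

set_option autoImplicit false

open CategoryTheory groupCohomology Rep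

namespace Fermat.Agent.S55.Adapt77.FinLayer33V

open ExtCitation
open Fermat.Agent.S55.Idele73.Basic
open Fermat.Agent.S55.InfRes9 Fermat.Agent.S55.GlobalInv91
open Fermat.Agent.S55.CS79.Limit Fermat.Agent.S55.CS79.FamilyCS
open Fermat.Agent.S55.CS79.FormationCS Fermat.Agent.S55.CS79.LevelClass
open Fermat.Agent.S55.CLDescent35.Hilbert90
open Fermat.Agent.Lib.FrobeniusExists (isAlgebraic_Qb isAlgClosure_Qb isGalois_Qb)

variable {p : ℕ} [Fact p.Prime]

section Zeta

attribute [local instance] isAlgebraic_Qb isAlgClosure_Qb isGalois_Qb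

/-- **`ζ_p ∈ L`** for a Galois level `L` whose group `Gal(ℚbar/L)` lies in a subgroup `V` on which
the mod `p` cyclotomic character is trivial. -/
theorem exists_primitiveRoot_of_ker_le (L : IntermediateField ℚ Qbar) [Normal ℚ L]
    {V : Subgroup GQ} (hLV : (resL L).ker ≤ V) (hmu : ∀ σ ∈ V, cycloChar p σ = 1) :
    ∃ ζ : ↥L, IsPrimitiveRoot ζ p := by
  obtain ⟨ζ, hζ⟩ := Fermat.Agent.S55.Adapt77.Leaf33Final.exists_primitiveRoot p
  have hmem : ζ ∈ L := by
    rw [← InfiniteGalois.fixedField_fixingSubgroup L, IntermediateField.mem_fixedField_iff]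
    intro s hs
    have hs' : s ∈ (resL L).ker := by rw [resL_ker]; exact hs
    exact Fermat.Agent.S55.MuLevel19.apply_eq_of_cycloChar_eq_one p (hmu s (hLV hs'))
      hζ.pow_eq_one
  exact ⟨⟨ζ, hmem⟩,
    IsPrimitiveRoot.of_map_of_injective (f := L.val) (by simpa using hζ) L.val.injective⟩

end Zeta

variable {S : Finset Nat.Primes} {V : Subgroup GQ}
  (hpS : pPrime p ∈ S) (hp2 : p ≠ 2) (hmu : ∀ σ ∈ V, cycloChar p σ = 1) (i : LevV S V)
include hpS hp2 hmu

/-- field **`h1ZC`** at the level `i : LevV S V` -/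
theorem h1ZC {m : ℕ} (χ : HV S V i →* Multiplicative (ZMod (p ^ m))) :
    ∀ x : H1 (res χ.ker.subtype (sesRes (unrOutside S i.1.1 i.1.unr) (HV S V i)).X₃),
      (∃ j : ℕ, p ^ j • x = 0) → x = 0 := by
  have : FiniteDimensional ℚ i.1.1 := i.1.unr.1
  have hex := exists_primitiveRoot_of_ker_le i.1.1 i.2 hmu
  exact FinLayer33.h1ZC hpS hp2 i.1.unr (unrOutside S i.1.1 i.1.unr) hex.choose hex.choose_spec (HV S V i) χ

/-- field **`cardZ`** at the level `i : LevV S V` -/
theorem cardZ {m : ℕ} (χ : HV S V i →* Multiplicative (ZMod (p ^ m))) {s : HV S V i}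
    (hs : chiVal χ s = 1) :
    Nat.card (pPrimary p (H2 ((sesRes (unrOutside S i.1.1 i.1.unr)
      (HV S V i)).X₃.quotientToInvariants χ.ker))) ∣ p ^ m := by
  have : FiniteDimensional ℚ i.1.1 := i.1.unr.1
  have hex := exists_primitiveRoot_of_ker_le i.1.1 i.2 hmu
  exact FinLayer33.cardZ hpS hp2 i.1.unr (unrOutside S i.1.1 i.1.unr) hex.choose hex.choose_spec (HV S V i) χ hs

/-- binder **`hb`** of `alpha_desc` at the level `i : LevV S V` -/
theorem hb {m : ℕ} (hm : (Nat.card (HV S V i)).factorization p = m) :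
    Nat.card (pPrimary p (H2 (sesRes (unrOutside S i.1.1 i.1.unr) (HV S V i)).X₃)) ∣ p ^ m := by
  have : FiniteDimensional ℚ i.1.1 := i.1.unr.1
  have hex := exists_primitiveRoot_of_ker_le i.1.1 i.2 hmu
  exact FinLayer33.hb hpS hp2 i.1.unr (unrOutside S i.1.1 i.1.unr) hex.choose hex.choose_spec (HV S V i) hm

/-- binder **`h1N`** of `alpha_desc` at the level `i : LevV S V`, `N` a `p`-subgroup -/
theorem h1N (N : Subgroup (HV S V i)) (hN : IsPGroup p N) :
    Limits.IsZero (groupCohomology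
      (res N.subtype (sesRes (unrOutside S i.1.1 i.1.unr) (HV S V i)).X₃) 1) := by
  have : FiniteDimensional ℚ i.1.1 := i.1.unr.1
  have hex := exists_primitiveRoot_of_ker_le i.1.1 i.2 hmu
  exact FinLayer33.h1N hpS hp2 i.1.unr (unrOutside S i.1.1 i.1.unr) hex.choose hex.choose_spec (HV S V i) N hN

end Fermat.Agent.S55.Adapt77.FinLayer33V
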