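/-
S55 / 35 -> A3 seam (helper77, interface adapters): **the named Props of helper99's
`LimDesc99.A3.AllCoreFinal` from helper91's `GlobalInv91.D2Wire`**.

* `invJU_eq_invJUU` : helper91's `D2Wire.invJU` (`toH2top (restrict …)`) IS helper99's
  `A3.invJUU` (`SysMore.toH2 …`), by helper54's `ToH2Bridge.toH2top_restrict`;
* `hsplit_named` : **`A3.HSplit hp2 S V hV ⟨_, hpS⟩` UNCONDITIONALLY** for every open `V` fixing
  `μ_p` (= helper91's `D2Wire.hsplit_D2` transported along `invJU_eq_invJUU`);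
* `halpha_named_of_D2` : the same transport for the binder `halpha` (input: the `halpha`
  conclusion stated with `D2Wire.invJU`, output: `A3.HAlpha`);
* `allCore_of_HS_HAlpha` : `A3.AllCore p S` from `HS` and the `D2Wire`-shaped `halpha` at every
  open `V` fixing `μ_p` (`HSplit` discharged).
-/
import Mathlib
import Fermat.Agent.S55.GlobalInv91.D2Wire
import Fermat.Agent.S55.LimDesc99.AllCoreFinal
import Fermat.Agent.S55.IdeleCoh54.ToH2Bridge

set_option autoImplicit false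
set_option linter.unusedSectionVars false
set_option linter.unusedVariables false

namespace Fermat.Agent.S55.Adapt77.NamedWire

open CategoryTheory groupCohomology ExtCitation
open Fermat.Agent.S55.Profin15 Fermat.Agent.S55.Idele73.Basic
open Fermat.Agent.S55.ESDiv20 hiding GQ Qb
open Fermat.Agent.S55.CS79.FamilyCS Fermat.Agent.S55.CS79.Limit Fermat.Agent.S55.CS79.LevelClass
open Fermat.Agent.S55.LimDesc99 Fermat.Agent.S55.LimDesc99.D2 Fermat.Agent.S55.CD3
open Fermat.Agent.S55.GlobalInv91 Fermat.Agent.S55.QZ33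
open Fermat.Agent.S55.CycloRecip37

variable {p : ℕ} [hp : Fact p.Prime] (hp2 : p ≠ 2) {S : Finset Nat.Primes}
  (hpS : (⟨p, hp.out⟩ : Nat.Primes) ∈ S) {V : Subgroup GQ}
  (hV : IsOpenSub (globalLevels S) V)

/-- helper91's finite-level total invariant IS helper99's. -/
theorem invJU_eq_invJUU (i : LevV S V) :
    D2Wire.invJU p hp2 S hpS V hV i = A3.invJUU hp2 S V hV ⟨_, hpS⟩ i :=
  Fermat.Agent.S55.IdeleCoh54.ToH2Bridge.toH2top_restrict _ _

/-- **`A3.HSplit`, UNCONDITIONALLY** (helper91 `D2Wire.hsplit_D2`). -/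
theorem hsplit_named (hmu : ∀ σ ∈ V, cycloChar p σ = 1) :
    A3.HSplit hp2 S V hV ⟨_, hpS⟩ := by
  intro i x n hx
  obtain ⟨j, h, m, χ, hfin, hres⟩ := D2Wire.hsplit_D2 p hp2 S hpS V hV hmu i x n hx
  refine ⟨j, h, m, χ, ?_, hres⟩
  rw [invJU_eq_invJUU] at hfin
  exact hfin

/-- the binder `halpha` of `GlobalInv91.SCFamily.exists_invCp` at `D2.scFamV`, for an ARBITRARY
family of finite-level invariants `invJ` (`A3.HAlpha` is the case `invJ := A3.invJUU`). -/
def HAlphaFor (invJ : ∀ i : LevV S V, H2 ((scFamV S V hV ⟨_, hpS⟩).d i).Y.X₂ →+ QZ) : Prop :=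
  ∀ i : LevV S V,
    ∃ (j : LevV S V) (h : j ≤ i) (m : ℕ)
      (χ : ((scFamV S V hV ⟨_, hpS⟩).d j).Q →* Multiplicative (ZMod (p ^ m))),
      FinLayerHyp ((scFamV S V hV ⟨_, hpS⟩).d j).Y p m χ (invJ j) ∧
      Nat.card (InfRes9.pPrimary p (H2 ((scFamV S V hV ⟨_, hpS⟩).d i).Y.X₃)) ∣ p ^ m ∧
      p ^ m ∣ (SCDatum.q ((scFamV S V hV ⟨_, hpS⟩).mono h)).ker.index ∧
      Limits.IsZero (groupCohomology
        (Rep.res (SCDatum.q ((scFamV S V hV ⟨_, hpS⟩).mono h)).ker.subtype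
          ((scFamV S V hV ⟨_, hpS⟩).d j).Y.X₃) 1) ∧
      ∃ invJN : H2 (Rep.res (SCDatum.q ((scFamV S V hV ⟨_, hpS⟩).mono h)).ker.subtype
          ((scFamV S V hV ⟨_, hpS⟩).d j).Y.X₂) →+ QZ,
        (∀ y : H2 ((scFamV S V hV ⟨_, hpS⟩).d j).Y.X₂,
          invJN ((res₂ ((scFamV S V hV ⟨_, hpS⟩).d j).Y.X₂
            (SCDatum.q ((scFamV S V hV ⟨_, hpS⟩).mono h)).ker).hom y) =
            (SCDatum.q ((scFamV S V hV ⟨_, hpS⟩).mono h)).ker.index • invJ j y) ∧
        ∃ invCN : H2 (Rep.res (SCDatum.q ((scFamV S V hV ⟨_, hpS⟩).mono h)).ker.subtype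
            ((scFamV S V hV ⟨_, hpS⟩).d j).Y.X₃) →+ QZ,
          Function.Injective invCN ∧
          ∀ x : H2 (Rep.res (SCDatum.q ((scFamV S V hV ⟨_, hpS⟩).mono h)).ker.subtype
              ((scFamV S V hV ⟨_, hpS⟩).d j).Y.X₂),
            invCN ((pushS₂ ((scFamV S V hV ⟨_, hpS⟩).d j).Y.g
              (SCDatum.q ((scFamV S V hV ⟨_, hpS⟩).mono h)).ker).hom x) = invJN x

/-- `A3.HAlpha` is `HAlphaFor` at `A3.invJUU`, definitionally. -/
theorem halpha_iff_for :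
    A3.HAlpha hp2 S V hV ⟨_, hpS⟩ ↔ HAlphaFor hpS hV (A3.invJUU hp2 S V hV ⟨_, hpS⟩) :=
  Iff.rfl

/-- `HAlphaFor` only depends on the values of the family `invJ`. -/
theorem halphaFor_congr {invJ invJ' : ∀ i : LevV S V, H2 ((scFamV S V hV ⟨_, hpS⟩).d i).Y.X₂ →+ QZ}
    (hJ : ∀ i, invJ i = invJ' i) (h : HAlphaFor hpS hV invJ) : HAlphaFor hpS hV invJ' := by
  obtain rfl : invJ = invJ' := funext hJ
  exact h

/-- **transport of the binder `halpha`**: the `halpha` conclusion for helper91's `D2Wire.invJU`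
gives helper99's named Prop `A3.HAlpha`. -/
theorem halpha_named_of_D2 (h : HAlphaFor hpS hV (D2Wire.invJU p hp2 S hpS V hV)) :
    A3.HAlpha hp2 S V hV ⟨_, hpS⟩ :=
  (halpha_iff_for hp2 hpS hV).2 (halphaFor_congr hpS hV (invJU_eq_invJUU hp2 hpS hV) h)

/-- **`A3.AllCore p S` from `HS` and the `D2Wire`-shaped `halpha`** at every open `V` fixing `μ_p`
(`HSplit` discharged by `hsplit_named`). -/
theorem allCore_of_HS_HAlpha (S : Finset Nat.Primes) (hpS : pPrime p ∈ S)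
    (hHS : ∀ (V : Subgroup GQ) (hV : IsOpenSub (globalLevels S) V),
      (∀ σ ∈ V, cycloChar p σ = 1) → A3.HS hp2 S V hV)
    (hα : ∀ (V : Subgroup GQ) (hV : IsOpenSub (globalLevels S) V),
      (∀ σ ∈ V, cycloChar p σ = 1) → HAlphaFor hpS hV (D2Wire.invJU p hp2 S hpS V hV)) :
    A3.AllCore p S :=
  A3.allCore_of_named hp2 S hpS fun V hV hmu =>
    ⟨hHS V hV hmu, hsplit_named hp2 hpS hV hmu, halpha_named_of_D2 hp2 hpS hV (hα V hV hmu)⟩

end Fermat.Agent.S55.Adapt77.NamedWire
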