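/-
S55 / iface (helper77): `GlobalInv91.FinLayerHyp` on the D2 family of an open subgroup `V` fixing
`μ_p`, in the LITERAL shape of the `hsplit` / `halpha` binders of
`LimDesc99.A3.hasFormationDatum_of_D2` (`((scFamV S V hV hS).d i).Y`, index `i : LevV S V`), with
the two inequalities and the primitive root discharged (Leaf33Final, unconditional):

* `normalCore_map_eq`, `index_normalCore_HV`, `exists_normalCore_bound` : the binder
  `hs : ∀ k, p ^ k ∣ H.normalCore.index → k ≤ s` of helper37's `RecT.recT_D2` /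
  `RecTSeam.finLayerHyp_D2` holds with ONE `s` for all the levels `H = HV S V j` of the family
  (`(HV S V j).normalCore.index = V.normalCore.index`: the Galois closure of `K = ℚbar^V`);
* `finLayerHyp_zero_V` : **the corner case `m = 0`** (`p ∤ |Gal(Ω_i/K)|`; helper87's
  `D2Level.finLayerHyp_zero`): `FinLayerHyp Y_i p 0 χ invJ` for EVERY `χ` and EVERY `invJ`;
* `finLayerHyp_towerCharK_V` : helper54's `ToH2Bridge.finLayerHyp_towerCharK'` at the level
  `i : LevV S V`, for `invJ := SysMore.toH2 I (HV S V i)`, any total system `I`, with ONLY `recT`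
  left open;
* **`finLayerHyp_D2_V`** : helper37's `RecTSeam.finLayerHyp_D2` at the level `i : LevV S V` for
  `invJU i := SysMore.toH2 (RecT.totalSysU hp2 i.1.1 S) (HV S V i)` — NO hypothesis left besides
  the tower data `(j m s h' hj hm hex hs)`.
-/
import Fermat.Agent.S55.Adapt77.FinLayer33V
import Fermat.Agent.S55.IdeleCoh54.ToH2Bridge
import Fermat.Agent.S55.CycloGlobal87.D2Level2
import Fermat.Agent.S55.CycloRecip37.RecTSeam

set_option autoImplicit false

open CategoryTheory groupCohomology Rep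

namespace Fermat.Agent.S55.Adapt77.FinLayerV

open ExtCitation
open Fermat.Agent.S55.Idele73.Basic
open Fermat.Agent.S55.InfRes9 Fermat.Agent.S55.GlobalInv91
open Fermat.Agent.S55.CLDescent35.Hilbert90
open Fermat.Agent.S55.Adapt77.HcycGlue
open Fermat.Agent.S55.CS79.Limit Fermat.Agent.S55.CS79.FamilyCS
open Fermat.Agent.S55.CS79.LevelClass
open Fermat.Agent.S55.Profin15 Fermat.Agent.S55.Profin15.LevelStr Fermat.Agent.S55.CD3
open Fermat.Agent.S55.LimDesc99 Fermat.Agent.S55.LimDesc99.D2
open Fermat.Agent.S55.CycloRecip37 Fermat.Agent.S55.CycloGlobal87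
open Fermat.Agent.S55.CycloGlobal87.D2Level
open Fermat.Agent.S55.IdeleVal44 Fermat.Agent.S55.IdeleCoh54.IdealSys Fermat.Agent.S55.QZ33

section Group

variable {G G' : Type*} [Group G] [Group G']

/-- the normal core commutes with the image under a surjection whose kernel lies in the subgroup -/
theorem normalCore_map_eq (f : G →* G') (hf : Function.Surjective f) (V : Subgroup G)
    (hV : f.ker ≤ V) : (V.map f).normalCore = V.normalCore.map f := by
  apply le_antisymm
  · intro x hx
    obtain ⟨g, rfl⟩ := hf x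
    refine ⟨g, ?_, rfl⟩
    intro b
    have h1 := hx (f b)
    rw [← map_inv, ← map_mul, ← map_mul] at h1
    obtain ⟨v, hv, hvf⟩ := h1
    have hk : v⁻¹ * (b * g * b⁻¹) ∈ f.ker := by
      rw [MonoidHom.mem_ker, map_mul, map_inv, hvf, inv_mul_cancel]
    have := V.mul_mem hv (hV hk)
    rwa [mul_inv_cancel_left] at this
  · have : (V.normalCore.map f).Normal := Subgroup.Normal.map inferInstance f hf
    exact Subgroup.normal_le_normalCore.mpr (Subgroup.map_mono V.normalCore_le)

/-- the index of the normal core is unchanged -/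
theorem index_normalCore_map (f : G →* G') (hf : Function.Surjective f) (V : Subgroup G)
    (hV : f.ker ≤ V) : (V.map f).normalCore.index = V.normalCore.index := by
  rw [normalCore_map_eq f hf V hV]
  exact Subgroup.index_map_eq _ hf (Subgroup.normal_le_normalCore.mpr hV)

end Group

variable {p : ℕ} [hp : Fact p.Prime]
  {S : Finset Nat.Primes} {V : Subgroup GQ}

/-- the normal core of `Gal(Ω_j/K)` in `Gal(Ω_j/ℚ)` has the index of the normal core of `V`, at
every level `j` of the family -/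
theorem index_normalCore_HV (j : LevV S V) :
    (HV S V j).normalCore.index = V.normalCore.index :=
  index_normalCore_map (resL j.1.1) (resL_surjective j.1.1) V j.2

/-- **the binder `hs` of `RecT.recT_D2` / `RecTSeam.finLayerHyp_D2`, uniformly in the level.** -/
theorem exists_normalCore_bound (p : ℕ) [hp : Fact p.Prime] (i₀ : LevV S V) :
    ∃ s : ℕ, ∀ (j : LevV S V) (k : ℕ), p ^ k ∣ (HV S V j).normalCore.index → k ≤ s := by
  refine ⟨V.normalCore.index, fun j k hk => ?_⟩
  rw [index_normalCore_HV] at hk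
  have hne : V.normalCore.index ≠ 0 := by
    rw [← index_normalCore_HV i₀]
    exact Subgroup.index_ne_zero_of_finite
  have h1 : p ^ k ≤ V.normalCore.index := Nat.le_of_dvd (Nat.pos_of_ne_zero hne) hk
  have h2 : k < p ^ k := Nat.lt_pow_self hp.out.one_lt
  omega

variable (hV : IsOpenSub (globalLevels S) V)
  (hpS : pPrime p ∈ S) (hp2 : p ≠ 2) (hmu : ∀ σ ∈ V, cycloChar p σ = 1) (i : LevV S V)

include hpS hp2 hmu in
/-- **`FinLayerHyp` at `m = 0` at the level `i : LevV S V`**, unconditional, in the literal shape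
of the `hsplit` / `halpha` binders of slot A3. -/
theorem finLayerHyp_zero_V (χ : ((scFamV S V hV ⟨_, hpS⟩).d i).Q →* Multiplicative (ZMod (p ^ 0)))
    {T : Type*} [AddCommGroup T] (invJ : H2 ((scFamV S V hV ⟨_, hpS⟩).d i).Y.X₂ →+ T) :
    FinLayerHyp ((scFamV S V hV ⟨_, hpS⟩).d i).Y p 0 χ invJ := by
  have hex := FinLayer33V.exists_primitiveRoot_of_ker_le i.1.1 i.2 hmu
  exact D2Level.finLayerHyp_zero (unrOutside S i.1.1 i.1.unr) ⟨_, hpS⟩ (HV S V i)
    (Leaf33Final.firstIneqOut_CS ⟨_, hpS⟩ hp2 _) le_top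
    (Leaf33Final.secondIneqOut_top hpS hp2 i.1.unr _ hex.choose hex.choose_spec) χ invJ

include hpS hmu in
/-- **`FinLayerHyp` of the tower layer at the level `i : LevV S V`, modulo `recT` only**
(helper54's `finLayerHyp_towerCharK'` with the two inequalities discharged), in the literal shape
of the `hsplit` / `halpha` binders of slot A3 for `invJU i := SysMore.toH2 I (HV S V i)`. -/
theorem finLayerHyp_towerCharK_V
    (θ : ℚ →+ QZ) (hθ : θ 1 = 0) (hθc : ∀ x : ℚ, θ x = ((x : ℚ) : QZ))
    (I : GSys.Sys (JIS i.1.1 S) QZ)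
    (hI : ∀ (H' : Subgroup (GalL i.1.1)) (f : GalL i.1.1 × GalL i.1.1 → IS i.1.1 S),
      (I.comap (prodRep.inr (JS i.1.1 S) (IS i.1.1 S))).S H' f = (idealSys i.1.1 S θ hθ).S H' f)
    (j m : ℕ) (hle : towerField p (j + m) ≤ i.1.1)
    (hj : ∀ g ∈ HV S V i,
      towerCharL p i.1.1 hp2 j ((towerField_mono p (Nat.le_add_right j m)).trans hle) g = 1)
    (hm : 1 ≤ m)
    (hex : ∃ g ∈ HV S V i, towerCharL p i.1.1 hp2 (j + 1)
      ((towerField_mono p (Nat.add_le_add_left hm j)).trans hle) g ≠ 1)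
    (recT : ∀ b : (sesRes (unrOutside S i.1.1 i.1.unr) (HV S V i)).X₁.ρ.invariants,
      SysMore.toH2 I (HV S V i) ((push₂ (sesRes (unrOutside S i.1.1 i.1.unr) (HV S V i)).f).hom
        (carryH2 (sesRes (unrOutside S i.1.1 i.1.unr) (HV S V i)).X₁
          (towerCharK p hp2 i.1.1 (HV S V i) j m hle hj) b)) = 0) :
    FinLayerHyp ((scFamV S V hV ⟨_, hpS⟩).d i).Y p m
      (towerCharK p hp2 i.1.1 (HV S V i) j m hle hj) (SysMore.toH2 I (HV S V i)) := by
  have hexζ := FinLayer33V.exists_primitiveRoot_of_ker_le i.1.1 i.2 hmu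
  exact Fermat.Agent.S55.IdeleCoh54.ToH2Bridge.finLayerHyp_towerCharK' hp2 i.1.unr
    (unrOutside S i.1.1 i.1.unr) ⟨_, hpS⟩ (HV S V i)
    (Leaf33Final.firstIneqOut_CS ⟨_, hpS⟩ hp2 _) le_top
    (Leaf33Final.secondIneqOut_top hpS hp2 i.1.unr _ hexζ.choose hexζ.choose_spec)
    θ hθ hθc I hI j m hle hj hm hex recT

include hpS hmu in
/-- **THE TOWER LAYER AT THE LEVEL `i : LevV S V`, ALL FIELDS, NO HYPOTHESIS** besides the tower
data: helper37's `RecTSeam.finLayerHyp_D2` for `invJU i := SysMore.toH2 (totalSysU hp2 Ω_i S) H_i`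
(helper54's `toH2top_restrict`), the two inequalities and `ζ_p ∈ Ω_i` discharged. -/
theorem finLayerHyp_D2_V (j m s : ℕ) (h' : towerField p (j + m + s) ≤ i.1.1)
    (hj : ∀ g ∈ HV S V i, towerCharL p i.1.1 hp2 j
      ((towerField_mono p (Nat.le_add_right j m)).trans
        ((towerField_mono p (Nat.le_add_right (j + m) s)).trans h')) g = 1)
    (hm : 1 ≤ m)
    (hex : ∃ g ∈ HV S V i, towerCharL p i.1.1 hp2 (j + 1)
      ((towerField_mono p (Nat.add_le_add_left hm j)).trans
        ((towerField_mono p (Nat.le_add_right (j + m) s)).trans h')) g ≠ 1)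
    (hs : ∀ k, p ^ k ∣ (HV S V i).normalCore.index → k ≤ s) :
    FinLayerHyp ((scFamV S V hV ⟨_, hpS⟩).d i).Y p m
      (towerCharK p hp2 i.1.1 (HV S V i) j m
        ((towerField_mono p (Nat.le_add_right (j + m) s)).trans h') hj)
      (SysMore.toH2 (RecT.totalSysU hp2 i.1.1 S) (HV S V i)) := by
  have hexζ := FinLayer33V.exists_primitiveRoot_of_ker_le i.1.1 i.2 hmu
  rw [← Fermat.Agent.S55.IdeleCoh54.ToH2Bridge.toH2top_restrict]
  exact RecTSeam.finLayerHyp_D2 hp2 i.1.unr (unrOutside S i.1.1 i.1.unr) hpS (HV S V i)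
    (Leaf33Final.firstIneqOut_CS ⟨_, hpS⟩ hp2 _) le_top
    (Leaf33Final.secondIneqOut_top hpS hp2 i.1.unr _ hexζ.choose hexζ.choose_spec)
    j m s h' hj hm hex hs

end Fermat.Agent.S55.Adapt77.FinLayerV
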