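/-
S55 / 35 -> A3 seam (helper77, interface adapters): **`A3.HAlpha` UNCONDITIONALLY**.

Wiring (nothing new is proved here):
* helper91 `GlobalInv91.D2Alpha.halpha_D2_of_recN` (the binder `halpha` of
  `LimDesc99.D2.exists_invCp_V_fin` for `D2Wire.invJU` from the ONE Sys-level input `RecN`);
* helper37 `CycloRecip37.RecTInfl.totalSysU_carry_eq_zero'` (= `RecN`, no level condition);
* `Adapt77.NamedWire.halpha_named_of_D2` (transport to helper99's named Prop `A3.HAlpha`,
  `invJUU` normal form, by helper54's `toH2top_restrict`).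

Exports: `recN_uncond`, `halpha_uncond : A3.HAlpha hp2 S V hV ⟨_, hpS⟩` (every open `V` fixing
`μ_p`), `allCore_of_HS : (∀ V hV, (μ_p fixed) → A3.HS hp2 S V hV) → A3.AllCore p S`.
-/
import Mathlib
import Fermat.Agent.S55.GlobalInv91.D2Alpha
import Fermat.Agent.S55.CycloRecip37.RecTInfl
import Fermat.Agent.S55.Adapt77.NamedWire

set_option autoImplicit false
set_option linter.unusedSectionVars false
set_option linter.unusedVariables false

namespace Fermat.Agent.S55.Adapt77.HAlphaUncond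

open CategoryTheory groupCohomology ExtCitation
open Fermat.Agent.S55.Profin15 Fermat.Agent.S55.Idele73.Basic
open Fermat.Agent.S55.ESDiv20 hiding GQ Qb
open Fermat.Agent.S55.CS79.FamilyCS Fermat.Agent.S55.CS79.Limit Fermat.Agent.S55.CS79.LevelClass
open Fermat.Agent.S55.LimDesc99 Fermat.Agent.S55.LimDesc99.D2 Fermat.Agent.S55.CD3
open Fermat.Agent.S55.GlobalInv91 Fermat.Agent.S55.QZ33
open Fermat.Agent.S55.CycloRecip37

variable {p : ℕ} [hp : Fact p.Prime] (hp2 : p ≠ 2) {S : Finset Nat.Primes}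
  (hpS : (⟨p, hp.out⟩ : Nat.Primes) ∈ S) {V : Subgroup GQ}
  (hV : IsOpenSub (globalLevels S) V)

include hpS in
/-- helper91's Sys-level input `RecN` is helper37's depth-free reciprocity. -/
theorem recN_uncond : D2Alpha.RecN p hp2 S V := fun j M hM N' a ha =>
  RecTInfl.totalSysU_carry_eq_zero' hp2 j.1.unr (unrOutside S j.1.1 j.1.unr) hpS M hM N' a ha

/-- **`A3.HAlpha`, UNCONDITIONALLY**, for every open `V` fixing `μ_p`. -/
theorem halpha_uncond (hmu : ∀ σ ∈ V, cycloChar p σ = 1) :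
    A3.HAlpha hp2 S V hV ⟨_, hpS⟩ :=
  NamedWire.halpha_named_of_D2 hp2 hpS hV
    (fun i => D2Alpha.halpha_D2_of_recN p hp2 S hpS V hV hmu (recN_uncond (V := V) hp2 hpS) i)

/-- **`A3.AllCore p S` from `HS` alone** (`HSplit`, `HAlpha` discharged). -/
theorem allCore_of_HS (S : Finset Nat.Primes) (hpS : pPrime p ∈ S)
    (hHS : ∀ (V : Subgroup GQ) (hV : IsOpenSub (globalLevels S) V),
      (∀ σ ∈ V, cycloChar p σ = 1) → A3.HS hp2 S V hV) :
    A3.AllCore p S :=
  A3.allCore_of_named hp2 S hpS fun V hV hmu =>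
    ⟨hHS V hV hmu, NamedWire.hsplit_named hp2 hpS hV hmu, halpha_uncond hp2 hpS hV hmu⟩

end Fermat.Agent.S55.Adapt77.HAlphaUncond
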