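/-
S55 interface adapter (helper77, deputy dispatcher): 33a (helper9, `InfRes9.H2InfRes_mono/exact`)
  ==>  the two named hypotheses `hmono`, `hexact` of 35 (helper91,
`GlobalInv91.exists_fundamental_class`), in its literal shapes.
-/
import Fermat.Agent.S55.InfRes9.InfRes2
import Fermat.Agent.S55.GlobalInv91.Tower

set_option autoImplicit false

open CategoryTheory groupCohomology Rep Limits

universe u

namespace Fermat.Agent.S55.Adapt77.InfResTower

open Fermat.Agent.S55

variable {k Γ : Type u} [CommRing k] [Group Γ] (C : Rep.{u, u, u} k Γ) (N : Subgroup Γ) [N.Normal]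

/-- `hmono` of `GlobalInv91.exists_fundamental_class` from `H¹(N, C) = 0`. -/
theorem hmono (h1 : IsZero (groupCohomology (res N.subtype C) 1)) :
    Function.Injective (GlobalInv91.infl₂ C N).hom :=
  (ModuleCat.mono_iff_injective _).1 (InfRes9.H2InfRes_mono C N h1)

/-- `hexact` of `GlobalInv91.exists_fundamental_class` from `H¹(N, C) = 0`. -/
theorem hexact (h1 : IsZero (groupCohomology (res N.subtype C) 1)) :
    ∀ x : H2 C, (GlobalInv91.res₂ C N).hom x = 0 → ∃ y, (GlobalInv91.infl₂ C N).hom y = x := by
  intro x hx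
  have h := InfRes9.H2InfRes_exact C N h1
  rw [ShortComplex.moduleCat_exact_iff] at h
  obtain ⟨y, hy⟩ := h x hx
  exact ⟨y, hy⟩

end Fermat.Agent.S55.Adapt77.InfResTower
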