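/-
S55 / iface (helper77): **(P1) `Contract34.GlobalRightExact p S` from ONE named input** — the
class-formation datum `hC` of 35 / L-d over every open `V` fixing `μ_p` — with the three other
named inputs of helper62's `P1Lim62.Endpoint.globalRightExact_of_named` discharged:

* `LocalPres S`      := helper28/helper71 `LocInv28.Final.presCochain` (22b closed);
* `TowerSplit p S q` := helper46 `CycloTower46.TowerSplit.towerSplit_forall`;
* conjunct (5)       := `Adapt77.Leaf33Final.h1_primary_CSp` (31 + 32 + 33 closed).

NOTE (interface correction): `Adapt77.Conj5.SecondIneqMu S p` (binder `h32` of helper62's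
endpoint) quantifies over all `L` with helper44's `UnrOutside L S` only, while the landed second
inequality (helper30/helper53) needs the Prelude form `L.IsUnramifiedOutside S`; so `h32` is NOT
the right named input.  This file re-proves helper62's two endpoint theorems without it (same
proof, conjunct (5) replaced); all his definitions (`invPlace`, `invJ`, `invJ_inj`, `invJ_surj`)
are used verbatim.
-/
import Fermat.Agent.S55.P1Lim62.Endpoint
import Fermat.Agent.S55.Adapt77.Leaf33Final
import Fermat.Agent.S55.CycloTower46.TowerSplit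
import Fermat.Agent.S55.LocInv28.Final

set_option autoImplicit false
set_option linter.unusedSectionVars false
set_option linter.unusedVariables false

open CategoryTheory groupCohomology ExtCitation

namespace Fermat.Agent.S55.Adapt77.P1Endpoint

open Fermat.Agent.S55.Profin15 Fermat.Agent.S55.Profin15.LevelStr Fermat.Agent.S55.CD3
open Fermat.Agent.S55.CDArith63 Fermat.Agent.S55.CDArith63.Adapter
open Fermat.Agent.S55.CDArith63.P1Chain
open Fermat.Agent.S55.Idele73 Fermat.Agent.S55.Idele73.Basic
open Fermat.Agent.S55.GlobalMod94.JS Fermat.Agent.S55.GlobalMod94.OpenJS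
open Fermat.Agent.S55.GlobalMod94.OpenDatum
open Fermat.Agent.S55.QZ33 Fermat.Agent.S55.ClassData72 Fermat.Agent.S55.PrimaryExt14
open Fermat.Agent.S55.LocField17 Fermat.Agent.S55.LocInv28.Main Fermat.Agent.S55.LocInv28.OpenSub
open Fermat.Agent.S55.S1Limit41.Global
open Fermat.Agent.S55.P1Lim62.ClassDatum Fermat.Agent.S55.P1Lim62.Endpoint

/-- **22b is closed**: helper62's named input `LocalPres S` is a theorem. -/
theorem localPres (S : Finset Nat.Primes) : LocalPres S :=
  fun q K _ => @Fermat.Agent.S55.LocInv28.Final.presCochain ((q : Nat.Primes) : ℕ)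
    ⟨(q : Nat.Primes).2⟩ K _

variable {p : ℕ} [hp : Fact p.Prime] (S : Finset Nat.Primes) (V : Subgroup GQ)
  (hV : IsOpenSub (globalLevels S) V)

/-- helper46's theorem in the binder shape of the endpoint -/
theorem towerSplit (hpS : pPrime p ∈ S) :
    ∀ q : ↥S, TowerSplit p S ((q : Nat.Primes) : ℕ) :=
  Fermat.Agent.S55.CycloTower46.TowerSplit.towerSplit_forall hp.out S hpS

/-- **(L-b) the limit formation datum over `V`** from the class-formation datum `invC` of the
true class module alone. -/
theorem hasFormationDatum_of_invC (hpS : pPrime p ∈ S) (hp2 : p ≠ 2)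
    (hmu : ∀ σ ∈ V, cycloChar p σ = 1)
    (invC : (levV S V hV).H2 (Rep.res V.subtype (CSl S)) →+ QZ)
    (hinjC : ∀ (y : (levV S V hV).H2 (Rep.res V.subtype (CSl S))) (n : ℕ),
      p ^ n • y = 0 → invC y = 0 → y = 0)
    (hrecC : ∀ y : (levV S V hV).H2 (JV S V),
      invC ((levV S V hV).H2map
        (resLin (A := CSp S) (B := CSl S) V.subtype (phi S) ∘ₗ
          resLin (A := JSp S) (B := CSp S) V.subtype (πCS S).hom.toLinearMap)
        ((ideleV S V (nonempty_of_mem S hpS)).equivariant_right.comp
          (classV S V).equivariant_left) y) = ∑ w, invJ S V hV (localPres S) w y) :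
    HasFormationDatum p S V hV := by
  have : Nonempty (PlaceV S V hV) := nonempty_placeV S V hV ⟨_, hpS⟩
  refine ⟨PlaceV S V hV, inferInstance, inferInstance, invJ S V hV (localPres S),
    S1Limit41.Transfer.invC' (levV S V hV) (classV S V) invC,
    fun x n _ h => invJ_inj S V hV (localPres S) x h,
    invJ_surj S V hV (localPres S) (towerSplit S hpS), ?_, ?_,
    Fermat.Agent.S55.Adapt77.Leaf33Final.h1_primary_CSp hpS hp2 V hV hmu, hH3J p S V hV⟩
  · intro y n hy h0
    exact S1Limit41.Transfer.hinvC_primary_of_class (levV S V hV) (classV S V)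
      (CSlV_isSmooth V hV) (isPrimeToP_ClS S hpS) invC hinjC y n hy h0
  · intro x
    rw [S1Limit41.Transfer.invC'_apply, ← H2map_comp]
    exact hrecC x

/-- **(P1), literally, from the class-formation datum of 35 alone.** -/
theorem globalRightExact_of_invC (hpS : pPrime p ∈ S) (hp2 : p ≠ 2)
    (hC : ∀ (V : Subgroup GQ) (hV : IsOpenSub (globalLevels S) V),
      (∀ σ ∈ V, cycloChar p σ = 1) →
      ∃ invC : (levV S V hV).H2 (Rep.res V.subtype (CSl S)) →+ QZ,
        (∀ (y : (levV S V hV).H2 (Rep.res V.subtype (CSl S))) (n : ℕ),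
          p ^ n • y = 0 → invC y = 0 → y = 0) ∧
        (∀ y : (levV S V hV).H2 (JV S V),
          invC ((levV S V hV).H2map
            (resLin (A := CSp S) (B := CSl S) V.subtype (phi S) ∘ₗ
              resLin (A := JSp S) (B := CSp S) V.subtype (πCS S).hom.toLinearMap)
            ((ideleV S V (nonempty_of_mem S hpS)).equivariant_right.comp
              (classV S V).equivariant_left) y) = ∑ w, invJ S V hV (localPres S) w y)) :
    Contract34.GlobalRightExact p S :=
  globalRightExact_of_datum hpS (fun V hV hmu => by
    obtain ⟨invC, hinjC, hrecC⟩ := hC V hV hmu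
    exact hasFormationDatum_of_invC S V hV hpS hp2 hmu invC hinjC hrecC)

end Fermat.Agent.S55.Adapt77.P1Endpoint
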