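/-
S55 / iface (helper77): **(P1) from the `p`-PRIMARY class-formation datum** — the shape 35 / L-d
actually produce (`GlobalInv91.SCFamily.exists_invCp`, `LimDesc99.D2.exists_invCp_V_fin`,
`CS79.FormationCS.exists_invCp_CS`): for every open `V` fixing `μ_p`

  `invCp : primary p (H²(V, C_S)) →+ ℚ/ℤ`, injective, with
  `invCp (a_* x) = ∑_w invJ_w x` for the `p`-PRIMARY `x ∈ H²(V, J_S)`,

`a : J_S → C_S = CSl S`, `j ↦ [(j, 0)]`, and helper62's CONCRETE local invariants
`invJ w = invW_w ∘ locW_w` (`P1Lim62.Endpoint.invJ`).  (The TOTAL form of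
`Adapt77.P1Endpoint.globalRightExact_of_invC` would need reciprocity at all primes `ℓ ≠ p`.)

Composition of helper72 `ClassFormation72.CSlim.hasFormationDatum_of_CSlim` (⇐ helper41
`S1Limit41.Formation`), helper62 `invJ_inj` / `invJ_surj`, helper46 TowerSplit, helper28 pres,
`Adapt77.Leaf33Final` (33) and `P1Lim62.ClassDatum.hH3J`.
-/
import Fermat.Agent.S55.Adapt77.P1Endpoint
import Fermat.Agent.S55.ClassFormation72.CSlim

set_option autoImplicit false
set_option linter.unusedSectionVars false
set_option linter.unusedVariables false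

open CategoryTheory groupCohomology ExtCitation

namespace Fermat.Agent.S55.Adapt77.P1EndpointP

open Fermat.Agent.S55.Profin15 Fermat.Agent.S55.Profin15.LevelStr Fermat.Agent.S55.CD3
open Fermat.Agent.S55.CDArith63 Fermat.Agent.S55.CDArith63.Adapter
open Fermat.Agent.S55.CDArith63.P1Chain
open Fermat.Agent.S55.Idele73 Fermat.Agent.S55.Idele73.Basic
open Fermat.Agent.S55.GlobalMod94.JS Fermat.Agent.S55.GlobalMod94.OpenJS
open Fermat.Agent.S55.GlobalMod94.OpenDatum
open Fermat.Agent.S55.QZ33 Fermat.Agent.S55.ClassData72 Fermat.Agent.S55.PrimaryExt14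
open Fermat.Agent.S55.ClassFormation72 Fermat.Agent.S55.ClassFormation72.CSlim
open Fermat.Agent.S55.P1Lim62.ClassDatum Fermat.Agent.S55.P1Lim62.Endpoint
open Fermat.Agent.S55.Adapt77.P1Endpoint

variable {p : ℕ} [hp : Fact p.Prime] (S : Finset Nat.Primes) (V : Subgroup GQ)
  (hV : IsOpenSub (globalLevels S) V)

/-- helper62's concrete local invariants, restricted to the `p`-primary classes -/
noncomputable def invJp (w : PlaceV S V hV) :
    primary p ((restrictLevels (globalLevels S) V hV).H2 (Rep.res V.subtype (JSp S))) →+ QZ :=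
  (invJ S V hV (localPres S) w).comp
    (primary p ((restrictLevels (globalLevels S) V hV).H2 (Rep.res V.subtype (JSp S)))).subtype

theorem invJp_apply (w : PlaceV S V hV)
    (x : primary p ((restrictLevels (globalLevels S) V hV).H2 (Rep.res V.subtype (JSp S)))) :
    invJp (p := p) S V hV w x = invJ S V hV (localPres S) w
      (x : (restrictLevels (globalLevels S) V hV).H2 (Rep.res V.subtype (JSp S))) := rfl

/-- **slot A3 over `V` from the `p`-primary class-formation datum.** -/
theorem hasFormationDatum_of_invCp (hpS : pPrime p ∈ S) (hp2 : p ≠ 2)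
    (hmu : ∀ σ ∈ V, cycloChar p σ = 1)
    (invCp : primary p ((restrictLevels (globalLevels S) V hV).H2
      (Rep.res V.subtype (CSl S))) →+ QZ)
    (hinjCp : ∀ c : primary p ((restrictLevels (globalLevels S) V hV).H2
      (Rep.res V.subtype (CSl S))), invCp c = 0 → c = 0)
    (hcompatp : ∀ x : primary p ((restrictLevels (globalLevels S) V hV).H2
        (Rep.res V.subtype (JSp S))),
      invCp (mapPrimary p ((restrictLevels (globalLevels S) V hV).H2map (aV S V)
        (aV_equivariant S V)).toAddMonoidHom x) = ∑ w, invJp S V hV w x) :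
    HasFormationDatum p S V hV := by
  have : Nonempty (PlaceV S V hV) := nonempty_placeV S V hV ⟨_, hpS⟩
  refine hasFormationDatum_of_CSlim V hV hpS (invJp S V hV) ?_ ?_ invCp hinjCp hcompatp
    (Fermat.Agent.S55.Adapt77.Leaf33Final.h1PrimaryVanishes_CS_res hpS hp2 V hV hmu)
    (hH3J p S V hV)
  · intro x hx
    exact Subtype.ext (invJ_inj S V hV (localPres S) _ hx)
  · intro t n ht
    obtain ⟨x, hx0, hxt⟩ := invJ_surj S V hV (localPres S) (towerSplit S hpS) t n ht
    exact ⟨⟨x, ⟨n, hx0⟩⟩, Subtype.ext hx0, hxt⟩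

/-- **(P1) `Contract34.GlobalRightExact p S`, literally, from the `p`-primary class-formation
datum of 35 / L-d alone.** -/
theorem globalRightExact_of_invCp (hpS : pPrime p ∈ S) (hp2 : p ≠ 2)
    (hC : ∀ (V : Subgroup GQ) (hV : IsOpenSub (globalLevels S) V),
      (∀ σ ∈ V, cycloChar p σ = 1) →
      ∃ invCp : primary p ((restrictLevels (globalLevels S) V hV).H2
          (Rep.res V.subtype (CSl S))) →+ QZ,
        (∀ c, invCp c = 0 → c = 0) ∧
        ∀ x : primary p ((restrictLevels (globalLevels S) V hV).H2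
            (Rep.res V.subtype (JSp S))),
          invCp (mapPrimary p ((restrictLevels (globalLevels S) V hV).H2map (aV S V)
            (aV_equivariant S V)).toAddMonoidHom x) = ∑ w, invJp S V hV w x) :
    Contract34.GlobalRightExact p S :=
  globalRightExact_of_datum hpS (fun V hV hmu => by
    obtain ⟨invCp, hinjCp, hcompatp⟩ := hC V hV hmu
    exact hasFormationDatum_of_invCp S V hV hpS hp2 hmu invCp hinjCp hcompatp)

end Fermat.Agent.S55.Adapt77.P1EndpointP
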