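/-
S55 / iface (helper77): **THE `s`-FREE RECIPROCITY FOR THE TOWER CLASSES, FROM THE TRANSITION
COMPATIBILITY `htr` OF THE FINITE-LEVEL TOTAL INVARIANTS.**

helper37's `RecT.totalSysU_carry_eq_zero` / `recT_D2` need the level `L ⊇ ℚ_{m+s}` with `p^s ≥` the
`p`-part of the degree of the Galois closure of `K = L^H` (corestriction-free descent).  For the
`N`-layer of `halpha` (`N = Gal(Ω_i·ℚ_M/Ω_i)`, generator character of the FULL level `M` of
`Ω_j = Ω_i·ℚ_M`) this depth is not available at `Ω_j`.  Here: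

* `map_carryH2` : naturality of the tower classes under `groupCohomology.map q φ 2`;
* `recT_free` : on the D2 family over ANY open `V`, from `htr` (the literal binder of
  `LimDesc99.A3.hasFormationDatum_of_D2` / `Core.core_of_D2` for
  `invJU i := SysMore.toH2 (totalSysU hp2 Ω_i S) (HV S V i)`; helper79 `HtrGlue.htr_totalSysU`):
  `invJU i (f_* (δχ_M|_{H_i} ∪ b)) = 0` for EVERY `M` with `ℚ_M ≤ Ω_i` — NO `s`, NO depth condition
  (pass to `Ω_i·ℚ_{M+s}` by `htr`, apply helper37's `s`-form there; the bound `s` is uniform in the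
  level by `FinLayerV.exists_normalCore_bound`);
* `recT_free_towerCharK` : the same for the onto character `towerCharK` (literal field `recT` of
  `FinLayerHyp`, no `s`);
* `totalSysU_carry_eq_zero_of_htr` : the Sys-level form = helper91's `(Σ-rec)` of #2654 / helper37's
  announced `RecTInfl.totalSysU_carry_eq_zero'` VERBATIM, from `htr` at all open subgroups:
  `((totalSysU hp2 L S).comap (deltaS h)).S N (carry (Lx L) (towerCharL p L hp2 M hM) a) = 0` for
  every `N ≤ Gal(L/ℚ)`, every `N`-invariant `a`, every `M` with `ℚ_M ≤ L`.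
-/
import Fermat.Agent.S55.Adapt77.FinLayerV

set_option autoImplicit false

open CategoryTheory groupCohomology Rep

namespace Fermat.Agent.S55.Adapt77.RecTFree

open ExtCitation
open Fermat.Agent.S55.Idele73.Basic
open Fermat.Agent.S55.InfRes9 Fermat.Agent.S55.GlobalInv91
open Fermat.Agent.S55.CLDescent35.Hilbert90
open Fermat.Agent.S55.CS79.Limit Fermat.Agent.S55.CS79.FamilyCS
open Fermat.Agent.S55.CS79.LevelClass
open Fermat.Agent.S55.Profin15 Fermat.Agent.S55.Profin15.LevelStr Fermat.Agent.S55.CD3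
open Fermat.Agent.S55.LimDesc99 Fermat.Agent.S55.LimDesc99.D2
open Fermat.Agent.S55.CycloRecip37 Fermat.Agent.S55.CycloGlobal87
open Fermat.Agent.S55.CycloGlobal87.D2Level
open Fermat.Agent.S55.IdeleVal44 Fermat.Agent.S55.IdeleCoh54.IdealSys Fermat.Agent.S55.QZ33
open Fermat.Agent.S55.CycloRecip37.RecT Fermat.Agent.S55.CycloRecip37.SysH2
open Fermat.Agent.S55.Adapt77.FinLayerV

section Generic

universe u

variable {k Γ Γ' : Type u} [CommRing k] [Group Γ] [Group Γ'] {n : ℕ} [NeZero n]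

/-- the image of an invariant element under an equivariant map along `q` is invariant -/
def mapInv (q : Γ' →* Γ) {A : Rep.{u, u, u} k Γ} {A' : Rep.{u, u, u} k Γ'}
    (φ : Rep.res q A ⟶ A') (a : A.ρ.invariants) : A'.ρ.invariants :=
  ⟨φ.hom (a : A), fun g => by
    have h1 := Rep.hom_comm_apply φ g (a : A)
    have h2 : (Rep.res q A).ρ g (a : A) = (a : A) := a.2 (q g)
    rw [h2] at h1
    exact h1.symm⟩

/-- **naturality of the tower classes** under `groupCohomology.map q φ 2`. -/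
theorem map_carryH2 (q : Γ' →* Γ) {A : Rep.{u, u, u} k Γ} {A' : Rep.{u, u, u} k Γ'}
    (φ : Rep.res q A ⟶ A') (χ : Γ →* Multiplicative (ZMod n)) (a : A.ρ.invariants) :
    (map q φ 2).hom (carryH2 A χ a) = carryH2 A' (χ.comp q) (mapInv q φ a) := by
  rw [carryH2_apply, carryH2_apply]
  erw [H2π_comp_map_apply]
  congr 1
  apply Subtype.ext
  funext x
  show φ.hom (carry A χ (a : A) (q x.1, q x.2)) = carry A' (χ.comp q) (φ.hom (a : A)) x
  rw [carry_apply, carry_apply, map_nsmul]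
  rfl

end Generic

variable {p : ℕ} [hp : Fact p.Prime] (hp2 : p ≠ 2) {S : Finset Nat.Primes}
  (hpS : pPrime p ∈ S)

section Family

variable (V : Subgroup GQ) (hV : IsOpenSub (globalLevels S) V)

/-- **`s`-free reciprocity on the D2 family over `V`**, from the transition compatibility of the
finite-level total invariants. -/
theorem recT_free
    (htr : ∀ (i j : LevV S V) (h : j ≤ i) (x : H2 ((scFamV S V hV ⟨_, hpS⟩).d i).Y.X₂),
      SysMore.toH2 (totalSysU hp2 j.1.1 S) (HV S V j)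
        ((SCDatum.tr₂ ((scFamV S V hV ⟨_, hpS⟩).mono h)).hom x) =
      SysMore.toH2 (totalSysU hp2 i.1.1 S) (HV S V i) x)
    (i : LevV S V) (M : ℕ) (hM : towerField p M ≤ i.1.1)
    (b : ((scFamV S V hV ⟨_, hpS⟩).d i).Y.X₁.ρ.invariants) :
    SysMore.toH2 (totalSysU hp2 i.1.1 S) (HV S V i)
      ((push₂ ((scFamV S V hV ⟨_, hpS⟩).d i).Y.f).hom
        (carryH2 ((scFamV S V hV ⟨_, hpS⟩).d i).Y.X₁
          ((towerCharL p i.1.1 hp2 M hM).comp (HV S V i).subtype) b)) = 0 := by
  obtain ⟨s, hs⟩ := exists_normalCore_bound p i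
  have hji : towerLevV p S hpS V i (M + s) ≤ i := towerLevV_le p S hpS V i (M + s)
  have hMs : towerField p (M + s) ≤ (towerLevV p S hpS V i (M + s)).1.1 :=
    towerField_le_towerLevV p S hpS V i (M + s)
  have hM' : towerField p M ≤ (towerLevV p S hpS V i (M + s)).1.1 :=
    (towerField_mono p (Nat.le_add_right M s)).trans hMs
  rw [← htr i _ hji, SCDatum.tr₂_push₂]
  have h1 := map_carryH2 (SCDatum.q ((scFamV S V hV ⟨_, hpS⟩).mono hji))
    (SCDatum.φ₁ ((scFamV S V hV ⟨_, hpS⟩).mono hji))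
    ((towerCharL p i.1.1 hp2 M hM).comp (HV S V i).subtype) b
  rw [h1]
  have hχ : ((towerCharL p i.1.1 hp2 M hM).comp (HV S V i).subtype).comp
      (SCDatum.q ((scFamV S V hV ⟨_, hpS⟩).mono hji)) =
      (towerCharL p (towerLevV p S hpS V i (M + s)).1.1 hp2 M hM').comp
        (HV S V (towerLevV p S hpS V i (M + s))).subtype := by
    apply MonoidHom.ext
    intro g
    obtain ⟨v, hv⟩ := ((scFamV S V hV ⟨_, hpS⟩).d (towerLevV p S hpS V i (M + s))).surj g
    have hq : SCDatum.q ((scFamV S V hV ⟨_, hpS⟩).mono hji)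
        (((scFamV S V hV ⟨_, hpS⟩).d (towerLevV p S hpS V i (M + s))).p v) =
        ((scFamV S V hV ⟨_, hpS⟩).d i).p v := Datum.q_p _ v
    calc (((towerCharL p i.1.1 hp2 M hM).comp (HV S V i).subtype).comp
          (SCDatum.q ((scFamV S V hV ⟨_, hpS⟩).mono hji))) g
        = ((towerCharL p i.1.1 hp2 M hM).comp (HV S V i).subtype)
            (SCDatum.q ((scFamV S V hV ⟨_, hpS⟩).mono hji)
              (((scFamV S V hV ⟨_, hpS⟩).d (towerLevV p S hpS V i (M + s))).p v)) := by
          exact (congrArg (fun x => ((towerCharL p i.1.1 hp2 M hM).comp (HV S V i).subtype)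
            (SCDatum.q ((scFamV S V hV ⟨_, hpS⟩).mono hji) x)) hv).symm
      _ = ((towerCharL p i.1.1 hp2 M hM).comp (HV S V i).subtype)
            (((scFamV S V hV ⟨_, hpS⟩).d i).p v) := congrArg _ hq
      _ = towerChar p hp2 M (v : GQ) := towerCharL_resL p i.1.1 hp2 M hM (v : GQ)
      _ = ((towerCharL p (towerLevV p S hpS V i (M + s)).1.1 hp2 M hM').comp
            (HV S V (towerLevV p S hpS V i (M + s))).subtype)
            (((scFamV S V hV ⟨_, hpS⟩).d (towerLevV p S hpS V i (M + s))).p v) :=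
          (towerCharL_resL p (towerLevV p S hpS V i (M + s)).1.1 hp2 M hM' (v : GQ)).symm
      _ = _ := congrArg _ hv
  have h2 := congrArg (fun χ => carryH2
    ((scFamV S V hV ⟨_, hpS⟩).d (towerLevV p S hpS V i (M + s))).Y.X₁ χ
    (mapInv (SCDatum.q ((scFamV S V hV ⟨_, hpS⟩).mono hji))
      (SCDatum.φ₁ ((scFamV S V hV ⟨_, hpS⟩).mono hji)) b)) hχ
  refine (congrArg (fun z => SysMore.toH2 (totalSysU hp2 (towerLevV p S hpS V i (M + s)).1.1 S)
    (HV S V (towerLevV p S hpS V i (M + s)))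
    ((push₂ ((scFamV S V hV ⟨_, hpS⟩).d (towerLevV p S hpS V i (M + s))).Y.f).hom z)) h2).trans ?_
  rw [← Fermat.Agent.S55.IdeleCoh54.ToH2Bridge.toH2top_restrict]
  have key := invJ_push₂_carryH2 (H := HV S V (towerLevV p S hpS V i (M + s)))
    (totalSysU hp2 (towerLevV p S hpS V i (M + s)).1.1 S)
    (deltaS (unrOutside S (towerLevV p S hpS V i (M + s)).1.1
      (towerLevV p S hpS V i (M + s)).1.unr))
    (towerCharL p (towerLevV p S hpS V i (M + s)).1.1 hp2 M hM')
    (mapInv (SCDatum.q ((scFamV S V hV ⟨_, hpS⟩).mono hji))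
      (SCDatum.φ₁ ((scFamV S V hV ⟨_, hpS⟩).mono hji)) b)
  refine key.trans ?_
  exact totalSysU_carry_eq_zero hp2 _ hpS M s hMs _ (hs _) _
    (fun g hg => (mapInv (SCDatum.q ((scFamV S V hV ⟨_, hpS⟩).mono hji))
      (SCDatum.φ₁ ((scFamV S V hV ⟨_, hpS⟩).mono hji)) b).2 ⟨g, hg⟩)

/-- **the literal field `recT` of `FinLayerHyp` for the onto character `towerCharK`, NO `s`.** -/
theorem recT_free_towerCharK
    (htr : ∀ (i j : LevV S V) (h : j ≤ i) (x : H2 ((scFamV S V hV ⟨_, hpS⟩).d i).Y.X₂),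
      SysMore.toH2 (totalSysU hp2 j.1.1 S) (HV S V j)
        ((SCDatum.tr₂ ((scFamV S V hV ⟨_, hpS⟩).mono h)).hom x) =
      SysMore.toH2 (totalSysU hp2 i.1.1 S) (HV S V i) x)
    (i : LevV S V) (j m : ℕ) (hle : towerField p (j + m) ≤ i.1.1)
    (hj : ∀ g ∈ HV S V i,
      towerCharL p i.1.1 hp2 j ((towerField_mono p (Nat.le_add_right j m)).trans hle) g = 1)
    (b : ((scFamV S V hV ⟨_, hpS⟩).d i).Y.X₁.ρ.invariants) :
    SysMore.toH2 (totalSysU hp2 i.1.1 S) (HV S V i)
      ((push₂ ((scFamV S V hV ⟨_, hpS⟩).d i).Y.f).hom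
        (carryH2 ((scFamV S V hV ⟨_, hpS⟩).d i).Y.X₁
          (towerCharK p hp2 i.1.1 (HV S V i) j m hle hj) b)) = 0 := by
  have h0 := recT_free hp2 hpS V hV htr i (j + m) hle b
  have h1 := carryH2_towerCharL_comp_subtype p hp2 i.1.1 (HV S V i) j m hle hj
    ((scFamV S V hV ⟨_, hpS⟩).d i).Y.X₁ b
  exact (congrArg (fun z => SysMore.toH2 (totalSysU hp2 i.1.1 S) (HV S V i)
    ((push₂ ((scFamV S V hV ⟨_, hpS⟩).d i).Y.f).hom z)) h1).symm.trans h0

end Family

section SysLevel

variable {L : IntermediateField ℚ Qbar} [Normal ℚ L] [FiniteDimensional ℚ L]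

/-- **THE `s`-FREE RECIPROCITY, Sys-LEVEL** (helper91's `(Σ-rec)`, helper37's announced
`RecTInfl.totalSysU_carry_eq_zero'` verbatim), from the transition compatibility `htr` of the
finite-level total invariants over all open subgroups. -/
theorem totalSysU_carry_eq_zero_of_htr
    (htrAll : ∀ (V : Subgroup GQ) (hV : IsOpenSub (globalLevels S) V) (i j : LevV S V)
      (h : j ≤ i) (x : H2 ((scFamV S V hV ⟨_, hpS⟩).d i).Y.X₂),
      SysMore.toH2 (totalSysU hp2 j.1.1 S) (HV S V j)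
        ((SCDatum.tr₂ ((scFamV S V hV ⟨_, hpS⟩).mono h)).hom x) =
      SysMore.toH2 (totalSysU hp2 i.1.1 S) (HV S V i) x)
    (hL : L.IsUnramifiedOutside S) (h : UnrOutside L S) (M : ℕ) (hM : towerField p M ≤ L)
    (N : Subgroup (GalL L)) (a : Lx L) (ha : ∀ g ∈ N, (Lx L).ρ g a = a) :
    ((totalSysU hp2 L S).comap (deltaS h)).S N (carry (Lx L) (towerCharL p L hp2 M hM) a) = 0 := by
  -- the open subgroup and the level
  let i₀ : GalLev S := ⟨L, inferInstance, hL⟩
  have hV : IsOpenSub (globalLevels S) (N.comap (resL L)) :=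
    ⟨(resL L).ker, i₀.ker_mem, fun σ hσ => by
      rw [Subgroup.mem_comap, MonoidHom.mem_ker.1 hσ]; exact N.one_mem⟩
  let i : LevV S (N.comap (resL L)) := ⟨i₀, fun σ hσ => by
    rw [Subgroup.mem_comap, MonoidHom.mem_ker.1 hσ]; exact N.one_mem⟩
  have hHV : HV S (N.comap (resL L)) i = N :=
    Subgroup.map_comap_eq_self_of_surjective (resL_surjective L) N
  -- the invariant element
  have hmem : ∀ g : ↥(HV S (N.comap (resL L)) i), (g : GalL L) ∈ N := fun g => hHV.le g.2
  let b : ((scFamV S (N.comap (resL L)) hV ⟨_, hpS⟩).d i).Y.X₁.ρ.invariants :=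
    ⟨a, fun g => ha _ (hmem g)⟩
  have h0 := recT_free hp2 hpS (N.comap (resL L)) hV (htrAll _ hV) i M hM b
  rw [← Fermat.Agent.S55.IdeleCoh54.ToH2Bridge.toH2top_restrict] at h0
  have key := invJ_push₂_carryH2 (H := HV S (N.comap (resL L)) i) (totalSysU hp2 L S)
    (deltaS (unrOutside S L hL)) (towerCharL p L hp2 M hM) b
  have h1 : ((totalSysU hp2 L S).comap (deltaS (unrOutside S L hL))).S
      (HV S (N.comap (resL L)) i) (carry (Lx L) (towerCharL p L hp2 M hM) a) = 0 :=
    key.symm.trans h0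
  rw [← GSys.Sys.congr_subgroup _ hHV]
  exact h1

end SysLevel

end Fermat.Agent.S55.Adapt77.RecTFree
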