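/-
S55 interface adapter (helper77): the devissage of leaf 33 (helper99 `SubQuot99` on top of helper9
`InfRes9.Devissage`) RESTRICTED to the layers below a fixed subgroup `H₀ ≤ G`.

`SubQuot99.subquot_pGroup` asks the prime-layer hypothesis `hcyc` for ALL layers `N ⊴ H ≤ G`.  The
second inequality (Kummer theory) is only available for layers whose base field contains `μ_p`,
i.e. for `H ≤ H₀ := Gal(L/K₀)`, `ζ_p ∈ K₀`.  The class of subquotients of `(G, A)` cut out by
subgroups `H ≤ H₀` is still closed under restriction and invariants, so the devissage goes through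
with `hcyc` only for `H ≤ H₀`; the conclusion holds for every layer `N ⊴ H ≤ H₀`.
-/
import Fermat.Agent.S55.SubQuot99.Devissage

set_option autoImplicit false

open CategoryTheory Rep groupCohomology

universe u

namespace Fermat.Agent.S55.Adapt77.SubQuotBelow

open Fermat.Agent.S55.SubQuot99 Fermat.Agent.S55.InfRes9

variable {k G : Type u} [CommRing k] [Group G] (A : Rep.{u, u, u} k G) (H₀ : Subgroup G)

/-- `(Q, B)` is a subquotient of `(G, A)` cut out by a subgroup contained in `H₀`. -/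
def IsSubQuotBelow (Q : Type u) [Group Q] (B : Rep.{u, u, u} k Q) : Prop :=
  ∃ D : SubQuotData A Q B, D.H ≤ H₀

variable {A H₀}

theorem IsSubQuotBelow.isSubQuot {Q : Type u} [Group Q] {B : Rep.{u, u, u} k Q}
    (h : IsSubQuotBelow A H₀ Q B) : IsSubQuot A Q B :=
  h.elim fun D _ => ⟨D⟩

theorem res_H_le {Q : Type u} [Group Q] {B : Rep.{u, u, u} k Q} (D : SubQuotData A Q B)
    (Q' : Subgroup Q) : (D.res Q').H ≤ D.H :=
  Subgroup.map_subtype_le _

theorem quot_H_eq {Q : Type u} [Group Q] {B : Rep.{u, u, u} k Q} (D : SubQuotData A Q B)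
    (Q' : Subgroup Q) [Q'.Normal] : (D.quot Q').H = D.H := rfl

variable (A H₀)

/-- the canonical layers `N ⊴ H ≤ H₀`. -/
theorem isSubQuotBelow_canonical (H : Subgroup G) (hH : H ≤ H₀) (N : Subgroup H) [N.Normal] :
    IsSubQuotBelow A H₀ (H ⧸ N) ((res H.subtype A).quotientToInvariants N) :=
  ⟨SubQuotData.canonical A H N, hH⟩

/-- the class is closed under the two formation operations. -/
theorem closed_isSubQuotBelow : Closed (k := k) (fun Q _ B => IsSubQuotBelow A H₀ Q B) where
  res _ _ _ h Q' := by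
    obtain ⟨D, hD⟩ := h
    exact ⟨D.res Q', (res_H_le D Q').trans hD⟩
  quot _ _ _ h Q' _ := by
    obtain ⟨D, hD⟩ := h
    exact ⟨D.quot Q', hD⟩

variable {A H₀}

/-- the cohomology of a subquotient below `H₀` is that of a canonical layer below `H₀`. -/
theorem IsSubQuotBelow.exists_cohomology_iso {Q : Type u} [Group Q] {B : Rep.{u, u, u} k Q}
    (h : IsSubQuotBelow A H₀ Q B) :
    ∃ (H : Subgroup G) (_ : H ≤ H₀) (N : Subgroup H) (_ : N.Normal),
      Nat.card Q = Nat.card (H ⧸ N) ∧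
      ∀ n : ℕ, Nonempty (groupCohomology B n ≅
        groupCohomology ((Rep.res H.subtype A).quotientToInvariants N) n) := by
  obtain ⟨D, hD⟩ := h
  exact ⟨D.H, hD, D.N, inferInstance, Nat.card_congr D.e.toEquiv,
    fun n => ⟨mapIso D.e D.e' D.e'_comp n⟩⟩

/-- the prime layers: it suffices to treat the canonical layers `N ⊴ H ≤ H₀`, `|H ⧸ N| = p`. -/
theorem IsSubQuotBelow.good_of_card_eq {p : ℕ}
    (hcyc : ∀ (H : Subgroup G), H ≤ H₀ → ∀ (N : Subgroup H) [N.Normal], Nat.card (H ⧸ N) = p →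
      Good p (H ⧸ N) ((Rep.res H.subtype A).quotientToInvariants N))
    {Q : Type u} [Group Q] {B : Rep.{u, u, u} k Q}
    (h : IsSubQuotBelow A H₀ Q B) (hQ : Nat.card Q = p) : Good p Q B := by
  obtain ⟨H, hH, N, hN, hcard, hi⟩ := h.exists_cohomology_iso
  exact good_of_iso hi (hcyc H hH N (hcard ▸ hQ))

/-- **devissage below `H₀`, `p`-group layers.** -/
theorem IsSubQuotBelow.good_of_isPGroup (p : ℕ) [Fact p.Prime]
    (hcyc : ∀ (H : Subgroup G), H ≤ H₀ → ∀ (N : Subgroup H) [N.Normal], Nat.card (H ⧸ N) = p →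
      Good p (H ⧸ N) ((Rep.res H.subtype A).quotientToInvariants N))
    {Q : Type u} [Group Q] [Finite Q] {B : Rep.{u, u, u} k Q} (h : IsSubQuotBelow A H₀ Q B)
    (hQ : IsPGroup p Q) : Good (Nat.card Q) Q B :=
  devissage_pGroup (P := fun Q _ B => IsSubQuotBelow A H₀ Q B) p (closed_isSubQuotBelow A H₀)
    (fun _ _ _ h' hc => h'.good_of_card_eq hcyc hc) Q B h hQ

/-- the same for the canonical layers `N ⊴ H ≤ H₀` with `H ⧸ N` a `p`-group. -/
theorem below_pGroup (p : ℕ) [Fact p.Prime]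
    (hcyc : ∀ (H : Subgroup G), H ≤ H₀ → ∀ (N : Subgroup H) [N.Normal], Nat.card (H ⧸ N) = p →
      Good p (H ⧸ N) ((Rep.res H.subtype A).quotientToInvariants N))
    (H : Subgroup G) (hH : H ≤ H₀) (N : Subgroup H) [N.Normal] [Finite (H ⧸ N)]
    (hp : IsPGroup p (H ⧸ N)) :
    Good (Nat.card (H ⧸ N)) (H ⧸ N) ((Rep.res H.subtype A).quotientToInvariants N) :=
  (isSubQuotBelow_canonical A H₀ H hH N).good_of_isPGroup p hcyc hp

/-- **devissage below `H₀`, `p`-parts of arbitrary finite layers.** -/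
theorem IsSubQuotBelow.pPart (p : ℕ) [Fact p.Prime]
    (hcyc : ∀ (H : Subgroup G), H ≤ H₀ → ∀ (N : Subgroup H) [N.Normal], Nat.card (H ⧸ N) = p →
      Good p (H ⧸ N) ((Rep.res H.subtype A).quotientToInvariants N))
    {Q : Type u} [Group Q] [Finite Q] {B : Rep.{u, u, u} k Q} (h : IsSubQuotBelow A H₀ Q B) :
    (∀ x : groupCohomology B 1, (∃ n : ℕ, p ^ n • x = 0) → x = 0) ∧
      Nat.card (pPrimary p (groupCohomology B 2)) ∣ p ^ (Nat.card Q).factorization p :=
  devissage_pPart (P := fun Q _ B => IsSubQuotBelow A H₀ Q B) p (closed_isSubQuotBelow A H₀)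
    (fun _ _ _ h' hc => h'.good_of_card_eq hcyc hc) Q B h

/-- the same for the canonical layers `N ⊴ H ≤ H₀`. -/
theorem below_pPart (p : ℕ) [Fact p.Prime]
    (hcyc : ∀ (H : Subgroup G), H ≤ H₀ → ∀ (N : Subgroup H) [N.Normal], Nat.card (H ⧸ N) = p →
      Good p (H ⧸ N) ((Rep.res H.subtype A).quotientToInvariants N))
    (H : Subgroup G) (hH : H ≤ H₀) (N : Subgroup H) [N.Normal] [Finite (H ⧸ N)] :
    (∀ x : groupCohomology ((Rep.res H.subtype A).quotientToInvariants N) 1,
        (∃ n : ℕ, p ^ n • x = 0) → x = 0) ∧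
      Nat.card (pPrimary p (groupCohomology ((Rep.res H.subtype A).quotientToInvariants N) 2)) ∣
        p ^ (Nat.card (H ⧸ N)).factorization p :=
  (isSubQuotBelow_canonical A H₀ H hH N).pPart p hcyc

/-- the special case `N = ⊥`-free form: for `H ≤ H₀` itself (as the layer `H ⧸ ⊥` is awkward,
we give the statement for the restricted module directly). -/
theorem below_res_pPart (p : ℕ) [Fact p.Prime]
    (hcyc : ∀ (H : Subgroup G), H ≤ H₀ → ∀ (N : Subgroup H) [N.Normal], Nat.card (H ⧸ N) = p →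
      Good p (H ⧸ N) ((Rep.res H.subtype A).quotientToInvariants N))
    [Finite G] (H : Subgroup G) (hH : H ≤ H₀) :
    (∀ x : groupCohomology (Rep.res H.subtype A) 1, (∃ n : ℕ, p ^ n • x = 0) → x = 0) ∧
      Nat.card (pPrimary p (groupCohomology (Rep.res H.subtype A) 2)) ∣
        p ^ (Nat.card H).factorization p := by
  have h : IsSubQuotBelow A H₀ H (Rep.res H.subtype A) := by
    refine ⟨(SubQuotData.self A).res H, ?_⟩
    intro g hg
    obtain ⟨h', hh', rfl⟩ := hg
    have : ((SubQuotData.self A).π h') ∈ H := hh'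
    have h2 : ((SubQuotData.self A).π h' : G) = (h' : G) := rfl
    exact hH (h2 ▸ this)
  exact h.pPart p hcyc

end Fermat.Agent.S55.Adapt77.SubQuotBelow
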