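/-
S55 interface adapter (helper77): REMOVING the base-field restriction from the output of leaf 33.

The second inequality (32-OUT) is only available for layers `N ⊴ H` whose base field `L^H` contains
`μ_p`, i.e. for `H ≤ H₀ := Gal(L/ℚ(μ_p))`.  But `H₀` is NORMAL in `G = Gal(L/ℚ)` of index dividing
`p - 1`, prime to `p`; so every `p`-subgroup of a subquotient `(Q, B)` of `(G, A)` whose KERNEL lies
in `H₀` (top field of the layer contains `μ_p` — always true for levels `L ⊇ ℚ(μ_p)`) is cut out by a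
subgroup of `H₀`.  Restricting to a `p`-Sylow subgroup (helper9 `InfRes9.ResKill`) gives the
`p`-primary statements of 33 for ALL such subquotients — in particular for the layers over the base
field `ℚ` itself, which P3P4 (reciprocity over `ℚ`) and 35 over `K = ℚ` need.
-/
import Fermat.Agent.S55.Adapt77.SubQuotBelow

set_option autoImplicit false

open CategoryTheory Rep groupCohomology

universe u

namespace Fermat.Agent.S55.Adapt77.SylowBelow

open Fermat.Agent.S55.SubQuot99 Fermat.Agent.S55.InfRes9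
open Fermat.Agent.S55.Adapt77.SubQuotBelow

variable {k G : Type u} [CommRing k] [Group G] {A : Rep.{u, u, u} k G} {H₀ : Subgroup G}

/-- in a group with a normal subgroup `H₀` of finite index prime to `p`, an element with a
`p`-power in `H₀` lies in `H₀`. -/
theorem mem_of_pow_mem [H₀.Normal] [H₀.FiniteIndex] {p : ℕ} (hp : p.Prime) (hidx : ¬ p ∣ H₀.index)
    {g : G} {n : ℕ} (hg : g ^ (p ^ n) ∈ H₀) : g ∈ H₀ := by
  have hcop : Nat.Coprime (p ^ n) H₀.index :=
    Nat.Coprime.pow_left n ((Nat.Prime.coprime_iff_not_dvd hp).2 hidx)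
  have h2 : g ^ H₀.index ∈ H₀ := Subgroup.pow_index_mem H₀ g
  have hb := Nat.gcd_eq_gcd_ab (p ^ n) H₀.index
  rw [hcop] at hb
  have : g = (g ^ (p ^ n)) ^ (Nat.gcdA (p ^ n) H₀.index) *
      (g ^ H₀.index) ^ (Nat.gcdB (p ^ n) H₀.index) := by
    rw [← zpow_natCast, ← zpow_natCast, ← zpow_mul, ← zpow_mul, ← zpow_add, ← hb]
    simp
  rw [this]
  exact H₀.mul_mem (H₀.zpow_mem hg _) (H₀.zpow_mem h2 _)

/-- `(Q, B)` is a subquotient of `(G, A)` whose kernel lies in `H₀` (no condition on the subgroup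
`H` itself: the base field need not contain `μ_p`, only the top field). -/
def IsSubQuotKer (A : Rep.{u, u, u} k G) (H₀ : Subgroup G) (Q : Type u) [Group Q]
    (B : Rep.{u, u, u} k Q) : Prop :=
  ∃ D : SubQuotData A Q B, ∀ h : D.H, D.π h = 1 → (h : G) ∈ H₀

theorem IsSubQuotBelow.isSubQuotKer {Q : Type u} [Group Q] {B : Rep.{u, u, u} k Q}
    (h : IsSubQuotBelow A H₀ Q B) : IsSubQuotKer A H₀ Q B := by
  obtain ⟨D, hD⟩ := h
  exact ⟨D, fun h _ => hD h.2⟩

/-- the canonical layers `N ⊴ H`, `N ≤ H₀`, `H` ARBITRARY. -/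
theorem isSubQuotKer_canonical (H : Subgroup G) (N : Subgroup H) [N.Normal]
    (hN : N.map H.subtype ≤ H₀) :
    IsSubQuotKer A H₀ (H ⧸ N) ((res H.subtype A).quotientToInvariants N) := by
  refine ⟨SubQuotData.canonical A H N, fun h hh => hN ⟨h, ?_, rfl⟩⟩
  exact (QuotientGroup.eq_one_iff (N := N) h).mp hh

/-- `(H, Res_H A)` for ANY subgroup `H` (kernel trivial). -/
theorem isSubQuotKer_res (H : Subgroup G) : IsSubQuotKer A H₀ H (Rep.res H.subtype A) := by
  refine ⟨(SubQuotData.self A).res H, ?_⟩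
  rintro ⟨g, h', hh', rfl⟩ h1
  have h2 : ((SubQuotData.self A).π h' : G) = 1 := congrArg Subtype.val h1
  have h3 : ((SubQuotData.self A).π h' : G) = (h' : G) := rfl
  rw [h3] at h2
  show (h' : G) ∈ H₀
  rw [h2]
  exact H₀.one_mem

/-- restriction to a subgroup keeps the kernel. -/
theorem IsSubQuotKer.res {Q : Type u} [Group Q] {B : Rep.{u, u, u} k Q}
    (h : IsSubQuotKer A H₀ Q B) (Q' : Subgroup Q) :
    IsSubQuotKer A H₀ Q' (Rep.res Q'.subtype B) := by
  obtain ⟨D, hD⟩ := h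
  refine ⟨D.res Q', ?_⟩
  rintro ⟨g, h', hh', rfl⟩ h1
  exact hD h' (congrArg Subtype.val h1)

section Sylow

variable [H₀.Normal] [H₀.FiniteIndex] {p : ℕ} [Fact p.Prime]

/-- a `p`-subgroup of a subquotient with kernel in `H₀` is cut out by a subgroup of `H₀`. -/
theorem IsSubQuotKer.res_isSubQuotBelow (hidx : ¬ p ∣ H₀.index)
    {Q : Type u} [Group Q] {B : Rep.{u, u, u} k Q} (h : IsSubQuotKer A H₀ Q B)
    (P : Subgroup Q) (hP : IsPGroup p P) :
    IsSubQuotBelow A H₀ P (Rep.res P.subtype B) := by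
  obtain ⟨D, hD⟩ := h
  refine ⟨D.res P, ?_⟩
  rintro g ⟨h', hh', rfl⟩
  have hmem : D.π h' ∈ P := hh'
  obtain ⟨n, hn⟩ := hP ⟨D.π h', hmem⟩
  have h1 : D.π (h' ^ (p ^ n)) = 1 := by
    rw [map_pow]
    exact congrArg Subtype.val hn
  have h2 : ((h' ^ (p ^ n) : D.H) : G) ∈ H₀ := hD _ h1
  rw [Subgroup.coe_pow] at h2
  exact mem_of_pow_mem (Fact.out : p.Prime) hidx h2

/-- the preimage of a normal `p`-subgroup: the quotient layer still has kernel in `H₀`. -/
theorem IsSubQuotKer.quot (hidx : ¬ p ∣ H₀.index)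
    {Q : Type u} [Group Q] {B : Rep.{u, u, u} k Q} (h : IsSubQuotKer A H₀ Q B)
    (N : Subgroup Q) [N.Normal] (hN : IsPGroup p N) :
    IsSubQuotKer A H₀ (Q ⧸ N) (B.quotientToInvariants N) := by
  obtain ⟨D, hD⟩ := h
  refine ⟨D.quot N, ?_⟩
  intro (h' : D.H) hh'
  have hmem : D.π h' ∈ N := (QuotientGroup.eq_one_iff (D.π h')).mp hh'
  obtain ⟨n, hn⟩ := hN ⟨D.π h', hmem⟩
  have h1 : D.π (h' ^ (p ^ n)) = 1 := by
    rw [map_pow]
    exact congrArg Subtype.val hn
  have h2 : ((h' ^ (p ^ n) : D.H) : G) ∈ H₀ := hD _ h1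
  rw [Subgroup.coe_pow] at h2
  exact mem_of_pow_mem (Fact.out : p.Prime) hidx h2

variable (hidx : ¬ p ∣ H₀.index)
  (hcyc : ∀ (H : Subgroup G), H ≤ H₀ → ∀ (N : Subgroup H) [N.Normal], Nat.card (H ⧸ N) = p →
    Good p (H ⧸ N) ((Rep.res H.subtype A).quotientToInvariants N))
include hidx hcyc

/-- **`p`-group subquotients with kernel in `H₀`**: `H¹ = 0`, `|H²| ∣ |Q|`. -/
theorem IsSubQuotKer.good_of_isPGroup {Q : Type u} [Group Q] [Finite Q] {B : Rep.{u, u, u} k Q}
    (h : IsSubQuotKer A H₀ Q B) (hQ : IsPGroup p Q) : Good (Nat.card Q) Q B := by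
  obtain ⟨D, hD⟩ := h
  have hbelow : IsSubQuotBelow A H₀ Q B := by
    refine ⟨D, ?_⟩
    intro g hg
    obtain ⟨n, hn⟩ := hQ (D.π ⟨g, hg⟩)
    have h1 : D.π ((⟨g, hg⟩ : D.H) ^ (p ^ n)) = 1 := by rw [map_pow]; exact hn
    have h2 := hD _ h1
    rw [Subgroup.coe_pow] at h2
    exact mem_of_pow_mem (Fact.out : p.Prime) hidx h2
  exact hbelow.good_of_isPGroup p hcyc hQ

/-- **33-OUT for ALL finite subquotients with kernel in `H₀`**: the `p`-primary part of `H¹`
vanishes and the `p`-primary part of `H²` has order dividing `|Q|_p`. -/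
theorem IsSubQuotKer.pPart {Q : Type u} [Group Q] [Finite Q] {B : Rep.{u, u, u} k Q}
    (h : IsSubQuotKer A H₀ Q B) :
    (∀ x : groupCohomology B 1, (∃ n : ℕ, p ^ n • x = 0) → x = 0) ∧
      Nat.card (pPrimary p (groupCohomology B 2)) ∣ p ^ (Nat.card Q).factorization p := by
  classical
  have hp : p.Prime := Fact.out
  let P : Sylow p Q := default
  have hPcard : Nat.card (P : Subgroup Q) = p ^ (Nat.card Q).factorization p :=
    Sylow.card_eq_multiplicity P
  have hPidx : ¬ p ∣ (P : Subgroup Q).index := Sylow.not_dvd_index P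
  obtain ⟨h1P, h2P⟩ := (h.res_isSubQuotBelow hidx (P : Subgroup Q) P.isPGroup').good_of_isPGroup p
    hcyc P.isPGroup'
  rw [hPcard] at h2P
  have hs1 := ModuleCat.subsingleton_of_isZero h1P
  refine ⟨fun x ⟨n, hn⟩ => ?_, ?_⟩
  · exact eq_zero_of_res_eq_zero_one B (P : Subgroup Q) hp hPidx x n hn (Subsingleton.elim _ _)
  · refine Dvd.dvd.trans ?_ h2P
    let f : pPrimary p (groupCohomology B 2) →+
        groupCohomology (Rep.res (P : Subgroup Q).subtype B) 2 :=
      (map (P : Subgroup Q).subtype (𝟙 (Rep.res (P : Subgroup Q).subtype B)) 2).hom.toAddMonoidHom.comp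
        (pPrimary p (groupCohomology B 2)).subtype
    refine AddSubgroup.card_dvd_of_injective f ?_
    rw [injective_iff_map_eq_zero]
    rintro ⟨x, n, hn⟩ hx
    apply Subtype.ext
    exact eq_zero_of_res_eq_zero_two B (P : Subgroup Q) hp hPidx x n hn hx

/-- layer form: `N ⊴ H`, `H` ARBITRARY, `N ≤ H₀`. -/
theorem pPart_layer (H : Subgroup G) (N : Subgroup H) [N.Normal] (hN : N.map H.subtype ≤ H₀)
    [Finite (H ⧸ N)] :
    (∀ x : groupCohomology ((Rep.res H.subtype A).quotientToInvariants N) 1,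
        (∃ n : ℕ, p ^ n • x = 0) → x = 0) ∧
      Nat.card (pPrimary p (groupCohomology ((Rep.res H.subtype A).quotientToInvariants N) 2)) ∣
        p ^ (Nat.card (H ⧸ N)).factorization p :=
  (isSubQuotKer_canonical H N hN).pPart hidx hcyc

/-- subgroup form: ANY finite subgroup `H ≤ G` acting on `A`. -/
theorem pPart_res (H : Subgroup G) [Finite H] :
    (∀ x : groupCohomology (Rep.res H.subtype A) 1, (∃ n : ℕ, p ^ n • x = 0) → x = 0) ∧
      Nat.card (pPrimary p (groupCohomology (Rep.res H.subtype A) 2)) ∣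
        p ^ (Nat.card H).factorization p :=
  (isSubQuotKer_res H).pPart hidx hcyc

end Sylow

end Fermat.Agent.S55.Adapt77.SylowBelow
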