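/-
S55 interface adapter (helper77): the seam 33 → 35-GEN WITHOUT the base-field restriction.

Same as `Adapt77.TowerInputsP` but for every subquotient `(Γ, C)` of `(G, A)` whose KERNEL lies in
`H₀` (`SylowBelow.IsSubQuotKer`; e.g. `C = Res_H A` for ANY `H ≤ G`, base field `L^H` arbitrary,
in particular `ℚ`), where `H₀ ⊴ G` has index prime to `p` (`H₀ = Gal(L/ℚ(μ_p))`, index `∣ p - 1`).
The two inequalities are still only required below `H₀`.
-/
import Fermat.Agent.S55.Adapt77.SylowBelow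
import Fermat.Agent.S55.Adapt77.TowerInputsP

set_option autoImplicit false

open CategoryTheory Rep groupCohomology

universe u

namespace Fermat.Agent.S55.Adapt77.TowerInputsK

open Fermat.Agent.S55.SubQuot99 Fermat.Agent.S55.InfRes9
open Fermat.Agent.S55.Adapt77.SubQuotBelow Fermat.Agent.S55.Adapt77.HcycGlue
open Fermat.Agent.S55.Adapt77.SylowBelow Fermat.Agent.S55.Adapt77.TowerInputsP
open Fermat.Agent.S55.GlobalInv91

variable {k G : Type u} [CommRing k] [Group G] {A : Rep.{u, u, u} k G} {H₀ : Subgroup G}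
  [H₀.Normal] [H₀.FiniteIndex] {p : ℕ} [Fact p.Prime]
  (hidx : ¬ p ∣ H₀.index) (h31 : FirstIneqOut A H₀ p) (h32 : SecondIneqOut A H₀ p)
  {Γ : Type u} [Group Γ] {C : Rep.{u, u, u} k Γ} (hC : IsSubQuotKer A H₀ Γ C)
include hidx h31 h32 hC

/-- **`h1N`**: `H¹(N, C) = 0` for a finite `p`-subgroup `N`. -/
theorem isZero_H1_res_of_ker (N : Subgroup Γ) [Finite N] (hN : IsPGroup p N) :
    Limits.IsZero (groupCohomology (Rep.res N.subtype C) 1) :=
  ((hC.res N).good_of_isPGroup hidx (hcyc_of_out h31 h32) hN).1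

/-- `p`-primary statements for ANY finite subgroup. -/
theorem pPart_res_of_ker (Z : Subgroup Γ) [Finite Z] :
    (∀ x : groupCohomology (Rep.res Z.subtype C) 1, (∃ n : ℕ, p ^ n • x = 0) → x = 0) ∧
      Nat.card (pPrimary p (groupCohomology (Rep.res Z.subtype C) 2)) ∣
        p ^ (Nat.card Z).factorization p :=
  (hC.res Z).pPart hidx (hcyc_of_out h31 h32)

/-- **`hH1Z`** (weak `H¹`) for any finite subgroup. -/
theorem exists_coprime_nsmul_cob_of_ker (Z : Subgroup Γ) [Finite Z] :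
    ∃ m' : ℕ, Nat.Coprime m' p ∧
      ∀ f : Z → C, (∀ z w : Z, f (z * w) = C.ρ (z : Γ) (f w) + f z) →
        ∃ y : C, ∀ z : Z, m' • f z = C.ρ (z : Γ) y - y :=
  exists_coprime_nsmul_cob C Z p (pPart_res_of_ker hidx h31 h32 hC Z).1

/-- **`hb`** for a normal `p`-subgroup `N`. -/
theorem card_pPrimary_H2_quot_of_ker (N : Subgroup Γ) [N.Normal] (hN : IsPGroup p N)
    [Finite (Γ ⧸ N)] :
    Nat.card (pPrimary p (H2 (C.quotientToInvariants N))) ∣
      p ^ (Nat.card (Γ ⧸ N)).factorization p :=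
  ((hC.quot hidx N hN).pPart hidx (hcyc_of_out h31 h32)).2

theorem pPrimary_H1_quot_of_ker (N : Subgroup Γ) [N.Normal] (hN : IsPGroup p N)
    [Finite (Γ ⧸ N)] :
    ∀ x : groupCohomology (C.quotientToInvariants N) 1, (∃ n : ℕ, p ^ n • x = 0) → x = 0 :=
  ((hC.quot hidx N hN).pPart hidx (hcyc_of_out h31 h32)).1

/-- **(35-GEN) with the inputs of 33 plugged in, base field arbitrary.** -/
theorem exists_fundamental_class_of_inv_of_ker [Finite Γ] {J : Rep.{u, u, u} k Γ} (π : J ⟶ C)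
    (N : Subgroup Γ) [N.Normal] (hN : IsPGroup p N) {n : ℕ} [NeZero n]
    (hn : n = p ^ (Nat.card (Γ ⧸ N)).factorization p)
    {T : Type*} [AddCommGroup T]
    (χ : Γ →* Multiplicative (ZMod n)) (s : Γ) (hs : chiVal χ s = 1)
    (invJ : H2 J →+ T) (invJN : H2 (res N.subtype J) →+ T)
    (hJ1 : ∀ y : H2 J, invJN ((res₂ J N).hom y) = N.index • invJ y)
    (invCN : H2 (res N.subtype C) →+ T) (hinjN : Function.Injective invCN)
    (hcompN : ∀ x : H2 (res N.subtype J), invCN ((pushS₂ π N).hom x) = invJN x)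
    (a : C.ρ.invariants) (c' : H2 J) (hc' : n • c' = 0)
    (hπ : (push₂ π).hom c' = carryH2 C χ a)
    (hc : ∀ m : ℕ, (∃ b : C, (∀ z : Γ, χ z = 1 → C.ρ z b = b) ∧
      m • (a : C) = partialNorm C s b n) → n ∣ m) :
    ∃ γ : H2 (C.quotientToInvariants N), (infl₂ C N).hom γ = carryH2 C χ a ∧
      addOrderOf γ = n ∧
      (∀ x : H2 (C.quotientToInvariants N), (∃ j : ℕ, p ^ j • x = 0) → ∃ j : ℤ, x = j • γ) ∧
      ∀ x : H2 (C.quotientToInvariants N), (∃ j : ℕ, p ^ j • x = 0) →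
        ∃ y : H2 J, n • y = 0 ∧ (push₂ π).hom y = (infl₂ C N).hom x := by
  have hp : p.Prime := Fact.out
  obtain ⟨m', hm', hH1Z⟩ := exists_coprime_nsmul_cob_of_ker hidx h31 h32 hC χ.ker
  have hbdvd := card_pPrimary_H2_quot_of_ker hidx h31 h32 hC N hN
  have : Finite (pPrimary p (H2 (C.quotientToInvariants N))) :=
    Nat.finite_of_card_ne_zero fun h0 => by
      rw [h0] at hbdvd
      exact (pow_pos hp.pos _).ne' (Nat.eq_zero_of_zero_dvd hbdvd)
  have hidx' : n ∣ N.index := by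
    rw [hn, Subgroup.index_eq_card]
    exact Nat.ordProj_dvd _ _
  exact exists_fundamental_class_of_inv π N p hn
    (isZero_H1_res_of_ker hidx h31 h32 hC N hN) χ s hs
    (hn ▸ Nat.Coprime.pow_right _ hm') hH1Z
    (hn ▸ hbdvd)
    invJ invJN hJ1 invCN hinjN hcompN hidx' a c' hc' hπ hc

end Fermat.Agent.S55.Adapt77.TowerInputsK
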